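/-
S27lib / D3 / FieldDeg  (helper8).
Pure field theory for the degree sandwich of D3:
* `surjective_of_finrank_le`: a `K`-embedding `φ : F → L` with `[L : K(φ x)] ≤ [F : K(x)]`
  (and `L / K(φ x)` finite) is surjective, and the two degrees are equal.
* `finrank_adjoin_eq_finrank_ratFunc`: for a field `L` which is a `RatFunc K`-algebra (compatibly
  with its `K`-algebra structure), `[L : K(t)] = [L : RatFunc K]` with `t` the image of `X`.
-/
import Mathlib

set_option autoImplicit false
set_option linter.unusedSectionVars false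
set_option linter.style.haveILetI false

noncomputable section

namespace Fermat.Agent.S27lib.D3

open IntermediateField Module

section Sandwich

variable {K F L : Type*} [Field K] [Field F] [Field L] [Algebra K F] [Algebra K L]

/-- `K(x) ≃ K(φ x)` induced by a `K`-embedding `φ`. -/
def adjoinMapEquiv (φ : F →ₐ[K] L) (x : F) : K⟮x⟯ ≃ₐ[K] K⟮φ x⟯ :=
  (equivMap K⟮x⟯ φ).trans (equivOfEq (by rw [adjoin_map, Set.image_singleton]))

lemma coe_adjoinMapEquiv (φ : F →ₐ[K] L) (x : F) (a : K⟮x⟯) :
    ((adjoinMapEquiv φ x a : K⟮φ x⟯) : L) = φ (a : F) := rfl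

/-- **degree sandwich**: a `K`-embedding `φ : F → L` such that `[L : K(φ x)] ≤ [F : K(x)]` is
surjective, and the degrees agree. -/
theorem surjective_of_finrank_le (φ : F →ₐ[K] L) (x : F) [FiniteDimensional K⟮φ x⟯ L]
    (h : finrank K⟮φ x⟯ L ≤ finrank K⟮x⟯ F) :
    Function.Surjective φ ∧ finrank K⟮φ x⟯ L = finrank K⟮x⟯ F := by
  letI algL : Algebra K⟮x⟯ L := (φ.toRingHom.comp (algebraMap K⟮x⟯ F)).toAlgebra
  have halg : ∀ a : K⟮x⟯, algebraMap K⟮x⟯ L a = φ (a : F) := fun a => rfl
  have hcomm : (algebraMap K⟮φ x⟯ L).comp (adjoinMapEquiv φ x).toRingEquiv.toRingHom =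
      (RingEquiv.refl L).toRingHom.comp (algebraMap K⟮x⟯ L) := by
    refine RingHom.ext fun a => ?_
    show ((adjoinMapEquiv φ x a : K⟮φ x⟯) : L) = algebraMap K⟮x⟯ L a
    rw [coe_adjoinMapEquiv, halg]
  have hfr : finrank K⟮x⟯ L = finrank K⟮φ x⟯ L :=
    Algebra.finrank_eq_of_equiv_equiv (adjoinMapEquiv φ x).toRingEquiv (RingEquiv.refl L) hcomm
  have hcomm' : (algebraMap K⟮x⟯ L).comp
      ((adjoinMapEquiv φ x).toRingEquiv.symm : K⟮φ x⟯ →+* K⟮x⟯) =
      ((RingEquiv.refl L : L ≃+* L) : L →+* L).comp (algebraMap K⟮φ x⟯ L) := by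
    refine RingHom.ext fun y => ?_
    have h1 := congrArg (fun ψ : K⟮x⟯ →+* L => ψ ((adjoinMapEquiv φ x).toRingEquiv.symm y)) hcomm
    simp only [RingHom.coe_comp, Function.comp_apply, RingEquiv.toRingHom_eq_coe,
      RingHom.coe_coe, RingEquiv.apply_symm_apply, RingEquiv.refl_apply] at h1
    simp only [RingHom.coe_comp, Function.comp_apply, RingHom.coe_coe, RingEquiv.refl_apply]
    exact h1.symm
  haveI hfinL : Module.Finite K⟮x⟯ L :=
    Module.Finite.of_equiv_equiv (A₁ := K⟮φ x⟯) (B₁ := L)
      (adjoinMapEquiv φ x).toRingEquiv.symm (RingEquiv.refl L) hcomm'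
  -- `φ` as a `K(x)`-linear map
  let φl : F →ₗ[K⟮x⟯] L :=
    { toFun := φ
      map_add' := map_add φ
      map_smul' := fun a f => by
        rw [Algebra.smul_def, map_mul, RingHom.id_apply, Algebra.smul_def, halg]
        rfl }
  have hinj : Function.Injective φl := φ.injective
  haveI hfinF : Module.Finite K⟮x⟯ F := Module.Finite.of_injective φl hinj
  have hle : finrank K⟮x⟯ F ≤ finrank K⟮x⟯ L := LinearMap.finrank_le_finrank_of_injective hinj
  have heq : finrank K⟮x⟯ F = finrank K⟮x⟯ L := le_antisymm hle (hfr ▸ h)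
  refine ⟨?_, by rw [← hfr, heq]⟩
  exact (LinearMap.injective_iff_surjective_of_finrank_eq_finrank heq).mp hinj

end Sandwich

section RatFunc

open Polynomial

variable {K L : Type*} [Field K] [Field L] [Algebra K L] [Algebra (RatFunc K) L]
  [IsScalarTower K (RatFunc K) L]

/-- the image `t` of `X` in a field which is a `RatFunc K`-algebra is transcendental over `K` -/
lemma transcendental_algebraMap_X :
    Transcendental K (algebraMap (RatFunc K) L RatFunc.X) := by
  have h1 : Transcendental K (RatFunc.X : RatFunc K) := RatFunc.transcendental_X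
  intro halg
  exact h1 ((isAlgebraic_algHom_iff (IsScalarTower.toAlgHom K (RatFunc K) L)
    (algebraMap (RatFunc K) L).injective).mp halg)

/-- `[L : K(t)] = [L : RatFunc K]` for `t` the image of `X`. -/
theorem finrank_adjoin_eq_finrank_ratFunc :
    finrank K⟮algebraMap (RatFunc K) L RatFunc.X⟯ L = finrank (RatFunc K) L := by
  set t : L := algebraMap (RatFunc K) L RatFunc.X with ht
  have htr : Transcendental K t := transcendental_algebraMap_X
  symm
  refine Algebra.finrank_eq_of_equiv_equiv
    (RatFunc.algEquivOfTranscendental t htr : RatFunc K ≃+* K⟮t⟯) (RingEquiv.refl L) ?_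
  apply IsLocalization.ringHom_ext (nonZeroDivisors K[X])
  refine RingHom.ext fun p => ?_
  simp only [RingHom.coe_comp, Function.comp_apply, RingHom.coe_coe, RingEquiv.toRingHom_eq_coe,
    RingEquiv.refl_apply]
  have h2 : (RatFunc.algEquivOfTranscendental t htr : RatFunc K ≃+* K⟮t⟯)
      (algebraMap K[X] (RatFunc K) p) = Polynomial.aeval (AdjoinSimple.gen K t) p :=
    RatFunc.algEquivOfTranscendental_algebraMap t htr p
  rw [h2, ← Polynomial.aeval_algebraMap_apply, AdjoinSimple.algebraMap_gen]
  -- `aeval t p = algebraMap (RatFunc K) L (algebraMap K[X] (RatFunc K) p)`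
  have h3 : (Polynomial.aeval t : K[X] →ₐ[K] L) =
      (IsScalarTower.toAlgHom K (RatFunc K) L).comp (IsScalarTower.toAlgHom K K[X] (RatFunc K)) := by
    apply Polynomial.algHom_ext
    simp [ht]
  rw [h3]
  rfl

/-- finiteness transfers as well -/
theorem finiteDimensional_adjoin_of_ratFunc [FiniteDimensional (RatFunc K) L] :
    FiniteDimensional K⟮algebraMap (RatFunc K) L RatFunc.X⟯ L := by
  set t : L := algebraMap (RatFunc K) L RatFunc.X with ht
  have htr : Transcendental K t := transcendental_algebraMap_X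
  refine Module.Finite.of_equiv_equiv (A₁ := RatFunc K) (B₁ := L)
    (RatFunc.algEquivOfTranscendental t htr : RatFunc K ≃+* K⟮t⟯) (RingEquiv.refl L) ?_
  apply IsLocalization.ringHom_ext (nonZeroDivisors K[X])
  refine RingHom.ext fun p => ?_
  simp only [RingHom.coe_comp, Function.comp_apply, RingHom.coe_coe, RingEquiv.refl_apply]
  have h2 : (RatFunc.algEquivOfTranscendental t htr : RatFunc K ≃+* K⟮t⟯)
      (algebraMap K[X] (RatFunc K) p) = Polynomial.aeval (AdjoinSimple.gen K t) p :=
    RatFunc.algEquivOfTranscendental_algebraMap t htr p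
  rw [h2, ← Polynomial.aeval_algebraMap_apply, AdjoinSimple.algebraMap_gen]
  have h3 : (Polynomial.aeval t : K[X] →ₐ[K] L) =
      (IsScalarTower.toAlgHom K (RatFunc K) L).comp (IsScalarTower.toAlgHom K K[X] (RatFunc K)) := by
    apply Polynomial.algHom_ext
    simp [ht]
  rw [h3]
  rfl

end RatFunc

end Fermat.Agent.S27lib.D3
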