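/-
S27lib / D3 / Free4  (helper8).
`Γ₀(4)` acts on `ℍ` freely modulo `±1`: an element of `SL(2,ℤ)` fixing a point of `ℍ` has
`(tr γ)² ≤ 4` with equality only for `γ = ±1`, and the trace of an element of `Γ₀(4)` is
`≡ 2 (mod 4)`.
-/
import Mathlib
import Fermat.Agent.ProgramR.Analytic.Elliptic

set_option autoImplicit false

noncomputable section

namespace Fermat.Agent.S27lib.D3

open Fermat.Agent.ProgramR UpperHalfPlane CongruenceSubgroup ModularGroup
open scoped MatrixGroups

/-- for `γ` fixing `z`, the number `w = c z + d` has absolute value one -/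
lemma normSq_denom_of_fixed {γ : SL(2, ℤ)} {z : ℍ} (hγ : γ • z = z) :
    Complex.normSq (denom γ z) = 1 := by
  have h := ModularGroup.im_smul_eq_div_normSq γ z
  rw [hγ] at h
  have hz : z.im ≠ 0 := z.im_ne_zero
  have hn : Complex.normSq (denom γ z) ≠ 0 := by
    intro h0
    rw [h0, div_zero] at h
    exact hz h
  have h2 : z.im * Complex.normSq (denom γ z) = z.im * 1 := by
    rw [mul_one]
    exact ((eq_div_iff hn).mp h)
  exact mul_left_cancel₀ hz h2

/-- for `γ` fixing `z`, the trace of `γ` is twice the real part of `c z + d` -/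
lemma trace_eq_of_fixed {γ : SL(2, ℤ)} {z : ℍ} (hγ : γ • z = z) :
    ((γ 0 0 + γ 1 1 : ℤ) : ℝ) = 2 * (denom γ z).re := by
  have hden : denom γ z = (γ 1 0 : ℂ) * z + γ 1 1 := by
    simp [denom_apply]
  have hfix : ((γ 0 0 : ℂ) * z + γ 0 1) / ((γ 1 0 : ℂ) * z + γ 1 1) = z := by
    have := congr_arg (fun w : ℍ ↦ (w : ℂ)) hγ
    simp only [coe_specialLinearGroup_apply] at this
    simpa using this
  have hd0 : ((γ 1 0 : ℂ) * z + γ 1 1) ≠ 0 := by
    rw [← hden]
    exact denom_ne_zero _ _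
  rw [div_eq_iff hd0] at hfix
  -- imaginary part of `a z + b = z (c z + d)`
  have him := congrArg Complex.im hfix
  simp only [Complex.add_im, Complex.mul_im, Complex.intCast_re, Complex.intCast_im, zero_mul,
    add_zero, UpperHalfPlane.coe_im, Complex.add_re, Complex.mul_re, UpperHalfPlane.coe_re,
    sub_zero] at him
  rw [hden]
  simp only [Complex.add_re, Complex.mul_re, Complex.intCast_re, Complex.intCast_im, zero_mul,
    sub_zero, UpperHalfPlane.coe_re]
  have hz : z.im ≠ 0 := z.im_ne_zero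
  push_cast
  have h3 : z.im * ((γ 0 0 : ℝ) + γ 1 1) = z.im * (2 * ((γ 1 0 : ℝ) * z.re + γ 1 1)) := by
    linarith
  exact mul_left_cancel₀ hz h3

/-- **elliptic elements have small trace**: an element of `SL(2,ℤ)` fixing a point of `ℍ` is
`±1` or has `(tr γ)² < 4`. -/
theorem eq_one_or_neg_one_or_trace_sq_lt {γ : SL(2, ℤ)} {z : ℍ} (hγ : γ • z = z) :
    γ = 1 ∨ γ = -1 ∨ (γ 0 0 + γ 1 1) ^ 2 < 4 := by
  have hn := normSq_denom_of_fixed hγ
  have ht := trace_eq_of_fixed hγ
  set w := denom γ z with hw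
  rw [Complex.normSq_apply] at hn
  by_cases him : w.im = 0
  · -- `w = ±1`
    have hre : w.re * w.re = 1 := by rw [him] at hn; linarith
    have e2 : w ^ 2 = 1 := by
      apply Complex.ext
      · simp [pow_two, Complex.mul_re, him, hre]
      · simp [pow_two, Complex.mul_im, him]
    rcases eq_one_or_neg_one_of_denom_sq hγ e2 with h | h
    · exact Or.inl h
    · exact Or.inr (Or.inl h)
  · right; right
    have him2 : 0 < w.im * w.im := mul_self_pos.mpr him
    have h1 : (((γ 0 0 + γ 1 1 : ℤ) : ℝ)) ^ 2 < 4 := by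
      rw [ht]
      nlinarith
    exact_mod_cast h1

/-- the trace of an element of `Γ₀(4)` is `≡ 2 (mod 4)` -/
lemma trace_Gamma0_four {γ : SL(2, ℤ)} (hγ : γ ∈ Gamma0 4) :
    ((γ 0 0 + γ 1 1 : ℤ) : ZMod 4) = 2 := by
  rw [Gamma0_mem] at hγ
  have hdet := γ.det_coe
  rw [Matrix.det_fin_two] at hdet
  have h1 := congrArg (Int.cast : ℤ → ZMod 4) hdet
  push_cast at h1
  rw [hγ, mul_zero, sub_zero] at h1
  push_cast
  generalize ((γ 0 0 : ℤ) : ZMod 4) = a at h1 ⊢
  generalize ((γ 1 1 : ℤ) : ZMod 4) = d at h1 ⊢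
  revert a d
  decide

/-- **`Γ₀(4)` has no elliptic elements**: it acts on `ℍ` freely modulo `±1`. -/
theorem eq_one_or_neg_one_of_fixed_Gamma0_four {γ : SL(2, ℤ)} (hγ : γ ∈ Gamma0 4) {z : ℍ}
    (hz : γ • z = z) : γ = 1 ∨ γ = -1 := by
  rcases eq_one_or_neg_one_or_trace_sq_lt hz with h | h | h
  · exact Or.inl h
  · exact Or.inr h
  · exfalso
    have h4 := trace_Gamma0_four hγ
    set t : ℤ := γ 0 0 + γ 1 1 with ht
    have h5 : ((t - 2 : ℤ) : ZMod 4) = 0 := by
      push_cast
      rw [h4]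
      ring
    rw [ZMod.intCast_zmod_eq_zero_iff_dvd] at h5
    obtain ⟨k, hk⟩ := h5
    have ht' : t = 4 * k + 2 := by push_cast at hk; linarith
    rw [ht'] at h
    rcases le_or_gt k (-1) with hk1 | hk1
    · nlinarith
    · have hk0 : 0 ≤ k := by omega
      nlinarith

end Fermat.Agent.S27lib.D3
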