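/-
S27lib / D3 / PtOfRoot (helper2).

Pure algebra for a finite free `ℂ[X]`-algebra `B` (the finite chart of a function field over `ℂ(β)`):
points `B →ₐ[ℂ] ℂ`, fibres of `β`, and the construction of a point from a root of the characteristic
polynomial of a "good" element `y` (one whose powers `1, y, …, y^(d-1)` have nonvanishing
determinant at `c`).
-/
import Mathlib

set_option autoImplicit false
set_option linter.unusedSectionVars false

noncomputable section

namespace Fermat.Agent.S27lib.D3

open Polynomial Matrix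

variable (B : Type) [CommRing B] [Algebra ℂ[X] B] [Algebra ℂ B] [IsScalarTower ℂ ℂ[X] B]
  [Module.Finite ℂ[X] B] [Module.Free ℂ[X] B]

/-- the coordinate `β ∈ B` -/
def beta : B := algebraMap ℂ[X] B X

/-- closed points of `Spec B` -/
abbrev Pt : Type := B →ₐ[ℂ] ℂ

/-- the fibre of `β` over `c` -/
def Fib (c : ℂ) : Set (Pt B) := {p | p (beta B) = c}

/-- the rank of `B` over `ℂ[X]` -/
abbrev rk : ℕ := Module.finrank ℂ[X] B

/-- a fixed basis of `B` over `ℂ[X]` -/
def bas : Module.Basis (Fin (rk B)) ℂ[X] B := Module.finBasis ℂ[X] B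

variable {B}

lemma algebraMap_C (a : ℂ) : algebraMap ℂ[X] B (C a) = algebraMap ℂ B a := by
  rw [IsScalarTower.algebraMap_apply ℂ ℂ[X] B]
  rfl

/-- a point over `c` evaluates the image of a polynomial at `c` -/
lemma Pt.apply_algebraMap {c : ℂ} {p : Pt B} (hp : p ∈ Fib B c) (q : ℂ[X]) :
    p (algebraMap ℂ[X] B q) = q.eval c := by
  have h : (p : B →+* ℂ).comp (algebraMap ℂ[X] B) = evalRingHom c := by
    apply Polynomial.ringHom_ext
    · intro a
      simp only [RingHom.coe_comp, RingHom.coe_coe, Function.comp_apply, coe_evalRingHom, eval_C]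
      rw [algebraMap_C, AlgHom.commutes]
      rfl
    · simp only [RingHom.coe_comp, RingHom.coe_coe, Function.comp_apply, coe_evalRingHom, eval_X]
      exact hp
  exact congrArg (fun f : ℂ[X] →+* ℂ => f q) h

lemma Pt.apply_smul {c : ℂ} {p : Pt B} (hp : p ∈ Fib B c) (q : ℂ[X]) (b : B) :
    p (q • b) = q.eval c * p b := by
  rw [Algebra.smul_def, map_mul, Pt.apply_algebraMap hp]

/-- a point over `c` evaluates `g(β, y)` as `g(c, p y)` -/
lemma Pt.apply_aeval {c : ℂ} {p : Pt B} (hp : p ∈ Fib B c) (y : B) (g : ℂ[X][X]) :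
    p (aeval y g) = g.evalEval c (p y) := by
  have h : (p : B →+* ℂ).comp (aeval (R := ℂ[X]) y : ℂ[X][X] →ₐ[ℂ[X]] B).toRingHom =
      evalEvalRingHom c (p y) := by
    apply Polynomial.ringHom_ext
    · intro a
      rw [coe_evalEvalRingHom, evalEval_C]
      simpa using Pt.apply_algebraMap hp a
    · rw [coe_evalEvalRingHom, evalEval_X]
      simp
  exact congrArg (fun f : ℂ[X][X] →+* ℂ => f g) h

variable (B)

/-! ### the power matrix, its determinant, the characteristic polynomial -/

/-- the matrix of coordinates of `1, y, …, y^(d-1)` in the fixed basis -/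
def powMat (y : B) : Matrix (Fin (rk B)) (Fin (rk B)) ℂ[X] :=
  fun i j => (bas B).repr (y ^ (j : ℕ)) i

/-- the determinant of the power matrix -/
def Dy (y : B) : ℂ[X] := (powMat B y).det

/-- the characteristic polynomial of multiplication by `y` -/
def Py (y : B) : ℂ[X][X] := (Algebra.leftMulMatrix (bas B) y).charpoly

lemma Py_monic (y : B) : (Py B y).Monic := Matrix.charpoly_monic _

lemma Py_natDegree (y : B) : (Py B y).natDegree = rk B := by
  rw [Py, Matrix.charpoly_natDegree_eq_dim, Fintype.card_fin]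

/-- Cayley–Hamilton in `B` -/
lemma aeval_Py (y : B) : aeval y (Py B y) = 0 := by
  apply Algebra.leftMulMatrix_injective (bas B)
  rw [map_zero, ← aeval_algHom_apply, Py]
  exact Matrix.aeval_self_charpoly _

/-- Cramer: the polynomial `g_b(β, Y)` with `g_b(β, y) = D · b` -/
def gOf (y : B) (b : B) : ℂ[X][X] :=
  ∑ j : Fin (rk B), C (((powMat B y).adjugate *ᵥ fun i => (bas B).repr b i) j) * X ^ (j : ℕ)

lemma gOf_add (y b b' : B) : gOf B y (b + b') = gOf B y b + gOf B y b' := by
  simp only [gOf, ← Finset.sum_add_distrib]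
  refine Finset.sum_congr rfl fun j _ => ?_
  rw [← add_mul, ← C_add]
  congr 2
  have : (fun i => (bas B).repr (b + b') i) =
      (fun i => (bas B).repr b i) + fun i => (bas B).repr b' i := by
    funext i; simp
  rw [this, Matrix.mulVec_add]
  rfl

lemma aeval_gOf (y b : B) : aeval y (gOf B y b) = Dy B y • b := by
  classical
  set M := powMat B y with hM
  set v : Fin (rk B) → ℂ[X] := fun i => (bas B).repr b i with hv
  have h1 : aeval y (gOf B y b) = ∑ j : Fin (rk B), (M.adjugate *ᵥ v) j • y ^ (j : ℕ) := by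
    simp only [gOf, map_sum, map_mul, aeval_C, map_pow, aeval_X, Algebra.smul_def]
    rfl
  have h2 : ∀ j : Fin (rk B), y ^ (j : ℕ) = ∑ i : Fin (rk B), M i j • (bas B) i := by
    intro j
    conv_lhs => rw [← (bas B).sum_repr (y ^ (j : ℕ))]
    rfl
  rw [h1]
  calc ∑ j : Fin (rk B), (M.adjugate *ᵥ v) j • y ^ (j : ℕ)
      = ∑ j : Fin (rk B), ∑ i : Fin (rk B), ((M.adjugate *ᵥ v) j * M i j) • (bas B) i := by
        refine Finset.sum_congr rfl fun j _ => ?_
        rw [h2 j, Finset.smul_sum]
        refine Finset.sum_congr rfl fun i _ => ?_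
        rw [smul_smul]
    _ = ∑ i : Fin (rk B), (∑ j : Fin (rk B), M i j * (M.adjugate *ᵥ v) j) • (bas B) i := by
        rw [Finset.sum_comm]
        refine Finset.sum_congr rfl fun i _ => ?_
        rw [Finset.sum_smul]
        refine Finset.sum_congr rfl fun j _ => ?_
        rw [mul_comm]
    _ = ∑ i : Fin (rk B), (M *ᵥ (M.adjugate *ᵥ v)) i • (bas B) i := rfl
    _ = ∑ i : Fin (rk B), (Dy B y * v i) • (bas B) i := by
        refine Finset.sum_congr rfl fun i _ => ?_
        rw [Matrix.mulVec_mulVec, Matrix.mul_adjugate, Matrix.smul_mulVec, Matrix.one_mulVec]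
        rfl
    _ = Dy B y • b := by
        conv_rhs => rw [← (bas B).sum_repr b, Finset.smul_sum]
        refine Finset.sum_congr rfl fun i _ => ?_
        rw [smul_smul]


lemma gOf_smul (y : B) (q : ℂ[X]) (b : B) : gOf B y (q • b) = C q * gOf B y b := by
  simp only [gOf, Finset.mul_sum]
  refine Finset.sum_congr rfl fun j _ => ?_
  rw [← mul_assoc, ← C_mul]
  congr 2
  have : (fun i => (bas B).repr (q • b) i) = q • fun i => (bas B).repr b i := by
    funext i; simp
  rw [this, Matrix.mulVec_smul]
  rfl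

lemma rk_pos [Nontrivial B] : 0 < rk B := Module.finrank_pos

/-- the kernel of `g ↦ g(β, y)` is generated by the characteristic polynomial, if `D ≠ 0` -/
lemma Py_dvd_of_aeval_eq_zero [Nontrivial B] (y : B) (hD : Dy B y ≠ 0) (g : ℂ[X][X])
    (h : aeval y g = 0) : Py B y ∣ g := by
  classical
  have hmon := Py_monic B y
  have hne1 : Py B y ≠ 1 := by
    intro h1
    have := Py_natDegree B y
    rw [h1, natDegree_one] at this
    exact (rk_pos B).ne this
  set ρ := g %ₘ Py B y with hρ
  have hdeg : ρ.natDegree < rk B := by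
    have := natDegree_modByMonic_lt g hmon hne1
    rwa [Py_natDegree] at this
  have hρ0 : aeval y ρ = 0 := by
    have h1 := modByMonic_add_div g (Py B y)
    have h2 : aeval y (g %ₘ Py B y + Py B y * (g /ₘ Py B y)) = 0 := by rw [h1, h]
    rw [map_add, map_mul, aeval_Py, zero_mul, add_zero] at h2
    exact h2
  -- coordinates
  have hsum : ∑ j ∈ Finset.range (rk B), ρ.coeff j • y ^ j = 0 := by
    rw [← aeval_eq_sum_range' hdeg]; exact hρ0
  set w : Fin (rk B) → ℂ[X] := fun j => ρ.coeff (j : ℕ) with hw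
  have hsum' : ∑ j : Fin (rk B), w j • y ^ (j : ℕ) = 0 := by
    rw [← hsum, Finset.sum_range]
  have hMw : powMat B y *ᵥ w = 0 := by
    funext i
    have h3 := congrArg (fun b => (bas B).repr b i) hsum'
    simp only [map_sum, map_smul, Finsupp.coe_finsetSum, Finsupp.coe_smul, Finset.sum_apply,
      Pi.smul_apply, smul_eq_mul, map_zero, Finsupp.coe_zero, Pi.zero_apply] at h3
    rw [Pi.zero_apply, ← h3]
    simp only [Matrix.mulVec, dotProduct, powMat]
    refine Finset.sum_congr rfl fun j _ => ?_
    rw [mul_comm]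
  have hw0 : w = 0 := Matrix.eq_zero_of_mulVec_eq_zero hD hMw
  have hρz : ρ = 0 := by
    refine Polynomial.ext fun j => ?_
    rw [coeff_zero]
    by_cases hj : j < rk B
    · exact congrFun hw0 ⟨j, hj⟩
    · exact coeff_eq_zero_of_natDegree_lt (lt_of_lt_of_le hdeg (not_lt.mp hj))
  exact (modByMonic_eq_zero_iff_dvd hmon).mp hρz

/-- two polynomials with the same value at `(β, y)` have the same value at `(c, r)` for every root
`r` of the characteristic polynomial at `c` -/
lemma evalEval_eq_of_aeval_eq [Nontrivial B] (y : B) (hD : Dy B y ≠ 0) {c r : ℂ}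
    (hr : (Py B y).evalEval c r = 0) {g g' : ℂ[X][X]} (h : aeval y g = aeval y g') :
    g.evalEval c r = g'.evalEval c r := by
  have h0 : aeval y (g - g') = 0 := by rw [map_sub, h, sub_self]
  obtain ⟨q, hq⟩ := Py_dvd_of_aeval_eq_zero B y hD (g - g') h0
  have := congrArg (fun f => f.evalEval c r) hq
  simp only [evalEval_sub, evalEval_mul, hr, zero_mul] at this
  exact sub_eq_zero.mp this

lemma Dy_ne_zero_of_eval {y : B} {c : ℂ} (h : (Dy B y).eval c ≠ 0) : Dy B y ≠ 0 := by
  rintro h0
  rw [h0, eval_zero] at h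
  exact h rfl

/-- **the point attached to a root** of the characteristic polynomial of `y` at `c` -/
def ptOfRoot [Nontrivial B] (y : B) (c r : ℂ) (hD : (Dy B y).eval c ≠ 0)
    (hr : (Py B y).evalEval c r = 0) : Pt B where
  toFun b := (gOf B y b).evalEval c r / (Dy B y).eval c
  map_one' := by
    have h : aeval y (gOf B y 1) = aeval y (C (Dy B y)) := by
      rw [aeval_gOf, aeval_C, Algebra.smul_def, mul_one]
    rw [evalEval_eq_of_aeval_eq B y (Dy_ne_zero_of_eval B hD) hr h, evalEval_C, div_self hD]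
  map_mul' b b' := by
    have h : aeval y (C (Dy B y) * gOf B y (b * b')) = aeval y (gOf B y b * gOf B y b') := by
      rw [map_mul, map_mul, aeval_gOf, aeval_gOf, aeval_gOf, aeval_C, Algebra.smul_def,
        Algebra.smul_def, Algebra.smul_def]
      ring
    have h2 := evalEval_eq_of_aeval_eq B y (Dy_ne_zero_of_eval B hD) hr h
    rw [evalEval_mul, evalEval_mul, evalEval_C] at h2
    field_simp
    linear_combination h2
  map_zero' := by
    have h : aeval y (gOf B y 0) = aeval y (0 : ℂ[X][X]) := by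
      rw [aeval_gOf, smul_zero, map_zero]
    rw [evalEval_eq_of_aeval_eq B y (Dy_ne_zero_of_eval B hD) hr h, evalEval_zero, zero_div]
  map_add' b b' := by
    rw [gOf_add, evalEval_add, add_div]
  commutes' a := by
    have h : aeval y (gOf B y (algebraMap ℂ B a)) = aeval y (C (C a * Dy B y)) := by
      rw [aeval_gOf, aeval_C, map_mul, algebraMap_C, Algebra.smul_def, mul_comm]
    rw [evalEval_eq_of_aeval_eq B y (Dy_ne_zero_of_eval B hD) hr h, evalEval_C, eval_mul, eval_C,
      mul_div_assoc, div_self hD, mul_one]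
    rfl

lemma ptOfRoot_apply [Nontrivial B] (y : B) (c r : ℂ) (hD : (Dy B y).eval c ≠ 0)
    (hr : (Py B y).evalEval c r = 0) (b : B) :
    ptOfRoot B y c r hD hr b = (gOf B y b).evalEval c r / (Dy B y).eval c := rfl

lemma ptOfRoot_mem_fib [Nontrivial B] (y : B) (c r : ℂ) (hD : (Dy B y).eval c ≠ 0)
    (hr : (Py B y).evalEval c r = 0) : ptOfRoot B y c r hD hr ∈ Fib B c := by
  show ptOfRoot B y c r hD hr (beta B) = c
  have h : aeval y (gOf B y (beta B)) = aeval y (C (X * Dy B y)) := by
    rw [aeval_gOf, aeval_C, map_mul, Algebra.smul_def, mul_comm]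
    rfl
  rw [ptOfRoot_apply, evalEval_eq_of_aeval_eq B y (Dy_ne_zero_of_eval B hD) hr h, evalEval_C,
    eval_mul, eval_X, mul_div_assoc, div_self hD, mul_one]

lemma ptOfRoot_apply_self [Nontrivial B] (y : B) (c r : ℂ) (hD : (Dy B y).eval c ≠ 0)
    (hr : (Py B y).evalEval c r = 0) : ptOfRoot B y c r hD hr y = r := by
  have h : aeval y (gOf B y y) = aeval y (C (Dy B y) * X) := by
    rw [aeval_gOf, map_mul, aeval_C, aeval_X, Algebra.smul_def]
  rw [ptOfRoot_apply, evalEval_eq_of_aeval_eq B y (Dy_ne_zero_of_eval B hD) hr h, evalEval_mul,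
    evalEval_C, evalEval_X, mul_comm, mul_div_assoc, div_self hD, mul_one]

variable {B}

/-- the value of a point at `y` is a root of the characteristic polynomial -/
lemma Pt.evalEval_Py {c : ℂ} {p : Pt B} (hp : p ∈ Fib B c) (y : B) :
    (Py B y).evalEval c (p y) = 0 := by
  rw [← Pt.apply_aeval hp, aeval_Py, map_zero]

/-- every point over `c` (with `D(c) ≠ 0`) is the point attached to its value at `y` -/
lemma Pt.eq_ptOfRoot [Nontrivial B] {c : ℂ} {p : Pt B} (hp : p ∈ Fib B c) (y : B)
    (hD : (Dy B y).eval c ≠ 0) : p = ptOfRoot B y c (p y) hD (Pt.evalEval_Py hp y) := by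
  ext b
  rw [ptOfRoot_apply, ← Pt.apply_aeval hp, aeval_gOf, Pt.apply_smul hp, mul_comm,
    mul_div_assoc, div_self hD, mul_one]

end Fermat.Agent.S27lib.D3
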