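/-
S27lib / D3 / LiftDefs (helper2).

Definitions for the lifting half of D3: holomorphic lifts `x : ℍ → Pt B` of a holomorphic function
`u : ℍ → ℂ` through the finite free `ℂ[X]`-algebra `B`, the algebra homomorphism `B →ₐ[ℂ] Hol`
attached to a lift, and the stabiliser of a lift inside a subgroup `G ≤ SL(2, ℤ)`.
-/
import Mathlib
import Fermat.Agent.ProgramR.Analytic.WH0Dedekind
import Fermat.Agent.S27lib.D3.PtOfRoot

set_option autoImplicit false
set_option linter.unusedSectionVars false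

noncomputable section

namespace Fermat.Agent.S27lib.D3

open Polynomial Fermat.Agent.ProgramR UpperHalfPlane
open scoped MatrixGroups Manifold

variable (B : Type) [CommRing B] [Algebra ℂ[X] B] [Algebra ℂ B] [IsScalarTower ℂ ℂ[X] B]
  [Module.Finite ℂ[X] B] [Module.Free ℂ[X] B]

/-- a holomorphic lift of `u` : a family of points of `B` over `u τ`, holomorphic in `τ` -/
structure IsHolLift (u : ℍ → ℂ) (x : ℍ → Pt B) : Prop where
  map_beta : ∀ τ, x τ (beta B) = u τ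
  mdiff : ∀ b : B, MDifferentiable 𝓘(ℂ) 𝓘(ℂ) fun τ => x τ b

/-- the algebra homomorphism attached to a lift -/
def IsHolLift.toHol {u : ℍ → ℂ} {x : ℍ → Pt B} (hx : IsHolLift B u x) : B →ₐ[ℂ] Hol where
  toFun b := ⟨fun τ => x τ b, hx.mdiff b⟩
  map_one' := by ext τ; simp
  map_mul' a b := by ext τ; simp
  map_zero' := by ext τ; simp
  map_add' a b := by ext τ; simp
  commutes' c := by ext τ; simp [Hol.algebraMap_apply]

@[simp] lemma IsHolLift.toHol_apply {u : ℍ → ℂ} {x : ℍ → Pt B} (hx : IsHolLift B u x) (b : B)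
    (τ : ℍ) : (hx.toHol B b).1 τ = x τ b := rfl

/-- the stabiliser in `G` of a lift `x` -/
def stab (G : Subgroup SL(2, ℤ)) (x : ℍ → Pt B) : Subgroup SL(2, ℤ) where
  carrier := {γ | γ ∈ G ∧ ∀ τ, x (γ • τ) = x τ}
  mul_mem' := by
    rintro a b ⟨ha, ha'⟩ ⟨hb, hb'⟩
    exact ⟨G.mul_mem ha hb, fun τ => by rw [mul_smul, ha', hb']⟩
  one_mem' := ⟨G.one_mem, fun τ => by rw [one_smul]⟩
  inv_mem' := by
    rintro a ⟨ha, ha'⟩
    exact ⟨G.inv_mem ha, fun τ => by rw [← ha' (a⁻¹ • τ), smul_inv_smul]⟩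

lemma mem_stab {G : Subgroup SL(2, ℤ)} {x : ℍ → Pt B} {γ : SL(2, ℤ)} :
    γ ∈ stab B G x ↔ γ ∈ G ∧ ∀ τ, x (γ • τ) = x τ := Iff.rfl

lemma stab_le (G : Subgroup SL(2, ℤ)) (x : ℍ → Pt B) : stab B G x ≤ G := fun _ h => h.1

theorem neg_one_mem_stab (G : Subgroup SL(2, ℤ)) (hG : (-1 : SL(2, ℤ)) ∈ G) (x : ℍ → Pt B) :
    (-1 : SL(2, ℤ)) ∈ stab B G x := by
  refine ⟨hG, fun τ => ?_⟩
  rw [ModularGroup.SL_neg_smul, one_smul]

end Fermat.Agent.S27lib.D3
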