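/-
S27lib / D3 / Growth  (helper8).  Block (W) of D3.
Let `B` be a finite free `ℂ[X]`-algebra, `G ≤ SL(2,ℤ)`, `u ∈ WH0 G` and `x : ℍ → Pt B` a holomorphic
lift of `u`.  Then for every `b ∈ B` the holomorphic function `τ ↦ x τ b` lies in `WH0 Γ`,
`Γ := stab B G x`: it is `Γ`-invariant by the definition of the stabiliser, and it is meromorphic at
the cusps because it is a root of a monic polynomial with coefficients in `ℂ[u] ⊆ WH0 Γ`
(Cauchy bound, `ProgramR.exists_bdd_of_monic_root`).  This gives `toWH0 : B →ₐ[ℂ] WH0 Γ`.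
-/
import Mathlib
import Fermat.Agent.ProgramR.Analytic.WH0Closed
import Fermat.Agent.S27lib.D3.LiftDefs

set_option autoImplicit false
set_option linter.unusedSectionVars false

noncomputable section

namespace Fermat.Agent.S27lib.D3

open Polynomial Fermat.Agent.ProgramR UpperHalfPlane
open scoped MatrixGroups Manifold

variable (B : Type) [CommRing B] [Algebra ℂ[X] B] [Algebra ℂ B] [IsScalarTower ℂ ℂ[X] B]
  [Module.Finite ℂ[X] B] [Module.Free ℂ[X] B]

variable {G : Subgroup SL(2, ℤ)} (u : ↥(WH0 G)) {x : ℍ → Pt B}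

/-- `u` as an element of `WH0 Γ` for the stabiliser `Γ ≤ G` of a lift -/
def uStab (x : ℍ → Pt B) : ↥(WH0 (stab B G x)) := ⟨u.1, WH0_mono (stab_le B G x) u.2⟩

@[simp] lemma uStab_apply (x : ℍ → Pt B) (τ : ℍ) : (uStab B u x : ℍ → ℂ) τ = (u : ℍ → ℂ) τ := rfl

/-- the base ring homomorphism `ℂ[X] → WH0 Γ`, `X ↦ u` -/
def polyToStab (x : ℍ → Pt B) : ℂ[X] →+* ↥(WH0 (stab B G x)) :=
  (Polynomial.aeval (uStab B u x)).toRingHom

lemma toHol_comp_algebraMap (hx : IsHolLift B (u : ℍ → ℂ) x) :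
    (hx.toHol B).toRingHom.comp (algebraMap ℂ[X] B) =
      (WH0.toHol (stab B G x)).toRingHom.comp (polyToStab B u x) := by
  apply Polynomial.ringHom_ext
  · intro a
    have h1 : algebraMap ℂ[X] B (C a) = algebraMap ℂ B a := algebraMap_C a
    simp only [RingHom.coe_comp, Function.comp_apply, AlgHom.toRingHom_eq_coe, RingHom.coe_coe,
      polyToStab, aeval_C, h1, AlgHom.commutes]
  · apply Hol.ext
    intro τ
    simp only [RingHom.coe_comp, Function.comp_apply, AlgHom.toRingHom_eq_coe, RingHom.coe_coe,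
      polyToStab, aeval_X]
    show x τ (algebraMap ℂ[X] B X) = (u : ℍ → ℂ) τ
    exact hx.map_beta τ

/-- **(W)**: the functions `τ ↦ x τ b` are weakly holomorphic modular functions for the stabiliser
of the lift. -/
theorem isWH0_lift (hx : IsHolLift B (u : ℍ → ℂ) x) (b : B) :
    IsWH0 (stab B G x) (fun τ => x τ b) where
  mdiff := hx.mdiff b
  smul_eq := fun γ hγ τ => by
    show x (γ • τ) b = x τ b
    rw [hγ.2 τ]
  exists_bdd := by
    have hint : IsIntegral ℂ[X] b := Algebra.IsIntegral.isIntegral b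
    obtain ⟨P, hP, hPb⟩ := hint
    refine exists_bdd_of_monic_root (stab B G x) (hx.toHol B b) (P.map (polyToStab B u x))
      (hP.map _) ?_
    rw [Polynomial.eval₂_map, ← toHol_comp_algebraMap B u hx]
    have h := Polynomial.hom_eval₂ P (algebraMap ℂ[X] B) (hx.toHol B).toRingHom b
    rw [hPb, map_zero] at h
    exact h.symm

/-- the algebra homomorphism `B → WH0 Γ` attached to a lift of `u ∈ WH0 G`, `Γ = stab B G x` -/
def toWH0 (hx : IsHolLift B (u : ℍ → ℂ) x) : B →ₐ[ℂ] ↥(WH0 (stab B G x)) :=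
  AlgHom.codRestrict (AlgHom.pi (R := ℂ) (A := fun _ : ℍ => ℂ) fun τ => x τ) (WH0 (stab B G x))
    (fun b => isWH0_lift B u hx b)

@[simp] lemma toWH0_apply (hx : IsHolLift B (u : ℍ → ℂ) x) (b : B) (τ : ℍ) :
    (toWH0 B u hx b : ℍ → ℂ) τ = x τ b := rfl

lemma toWH0_beta (hx : IsHolLift B (u : ℍ → ℂ) x) : toWH0 B u hx (beta B) = uStab B u x :=
  Subtype.ext (funext fun τ => hx.map_beta τ)

lemma toHol_toWH0 (hx : IsHolLift B (u : ℍ → ℂ) x) (b : B) :
    WH0.toHol (stab B G x) (toWH0 B u hx b) = hx.toHol B b := Hol.ext fun _ => rfl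

/-- the value of the lift at the image of a polynomial -/
lemma toWH0_algebraMap_apply (hx : IsHolLift B (u : ℍ → ℂ) x) (q : ℂ[X]) (τ : ℍ) :
    (toWH0 B u hx (algebraMap ℂ[X] B q) : ℍ → ℂ) τ = q.eval ((u : ℍ → ℂ) τ) := by
  rw [toWH0_apply]
  exact Pt.apply_algebraMap (hx.map_beta τ) q

/-- **injectivity**: if `B` is a domain and `u` takes infinitely many values, the homomorphism
`B → WH0 Γ` attached to a lift is injective. -/
theorem toWH0_injective [IsDomain B] (hu : (Set.range (u : ℍ → ℂ)).Infinite)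
    (hx : IsHolLift B (u : ℍ → ℂ) x) : Function.Injective (toWH0 B u hx) := by
  rw [injective_iff_map_eq_zero]
  have hker : RingHom.ker (toWH0 B u hx : B →+* ↥(WH0 (stab B G x))) = ⊥ := by
    apply Ideal.eq_bot_of_comap_eq_bot (R := ℂ[X])
    rw [eq_bot_iff]
    intro q hq
    rw [Ideal.mem_comap, RingHom.mem_ker] at hq
    rw [Ideal.mem_bot]
    by_contra hq0
    apply hu
    refine (q.rootSet_finite ℂ).subset ?_
    rintro _ ⟨τ, rfl⟩
    rw [Polynomial.mem_rootSet]
    refine ⟨hq0, ?_⟩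
    have h1 := toWH0_algebraMap_apply B u hx q τ
    have h2 : (toWH0 B u hx (algebraMap ℂ[X] B q) : ℍ → ℂ) τ = 0 := by
      have : toWH0 B u hx (algebraMap ℂ[X] B q) = 0 := hq
      rw [this]
      rfl
    rw [h2] at h1
    rw [Polynomial.coe_aeval_eq_eval]
    exact h1.symm
  intro b hb
  have : b ∈ RingHom.ker (toWH0 B u hx : B →+* ↥(WH0 (stab B G x))) := hb
  rwa [hker, Ideal.mem_bot] at this

end Fermat.Agent.S27lib.D3
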