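/-
S27lib / D3 / Haupt4  (helper8).  Block (H) of D3.
The Hauptmodul of `Γ₀(4)` as a holomorphic function on `ℍ`: there is `u4 ∈ WH0 Γ₀(4)` with
`j · u⁴ (1 - u) = 16 (u² - 16 u + 16)³`; in particular `u4` omits the values `0` and `1` on `ℍ`.
Construction: the formal `q`-series `μ₄ = (η(z)/η(4z))⁸` of `S18lib/Haupt/Level4` lies in
`ℂ(j(q), j(q²), j(q⁴))`, which is in the range of the injective `q`-expansion
`qExpFF 4 : Frac (WH0 Γ₀(4)) → ℂ((q))`; the preimage `μ` satisfies the (monic, degree 6) relation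
`j μ⁴ (μ + 16) = (μ² + 256 μ + 4096)³`, hence is integral over `ℂ[j]`, hence lies in `WH0 Γ₀(4)`.
`u4 := -μ/16`.
-/
import Mathlib
import Fermat.Agent.S18lib.Haupt.Generate
import Fermat.Agent.ProgramR.BarField.ToFunField
import Fermat.Agent.ProgramR.Analytic.Gamma0Chart
import Fermat.Agent.ProgramR.CuspLocal.InftyFinal

set_option autoImplicit false
set_option linter.unusedSectionVars false

noncomputable section

namespace Fermat.Agent.S27lib.D3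

open Fermat.Agent.ProgramR Fermat.Agent.ProgramR.BarField Fermat.Agent.ProgramR.QExp
open Fermat.Agent.ProgramR.CuspLocal Fermat.Agent.S18lib.Haupt
open ModularCurve CongruenceSubgroup UpperHalfPlane Polynomial
open scoped MatrixGroups Manifold

attribute [local instance] Genus.cosetFintype

/-- the field `ℂ(j(q), j(q^d) : d ∣ N)` lies in the range of the `q`-expansion of
`Frac (WH0 Γ₀(N))`. -/
theorem fullC_le_fieldRange_qExpFF (N : ℕ) [NeZero N] :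
    (modularFunctionFieldFullC ℂ N).toSubfield ≤ (qExpFF N).fieldRange := by
  rw [modularFunctionFieldFullC, IntermediateField.adjoin, Subfield.closure_le]
  rintro x (⟨a, rfl⟩ | ⟨d, hd, hdN, rfl⟩)
  · rw [SetLike.mem_coe, RingHom.mem_fieldRange]
    refine ⟨algebraMap _ _ (algebraMap ℂ (WH0 (Gamma0 N)) a), ?_⟩
    rw [qExpFF_const, algebraMap_laurentSeries_eq_single]
    rfl
  · have := hd
    rw [SetLike.mem_coe, RingHom.mem_fieldRange]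
    exact ⟨algebraMap _ _ (jdWH0 N d hdN), qExpFF_jdWH0 N d hdN⟩

/-- the inclusion of the algebraic integers into `ℂ` -/
def intClosureToC : integralClosure ℤ ℂ →+* ℂ := (integralClosure ℤ ℂ).val.toRingHom

/-- **existence of the Hauptmodul in the function field**: an element of `Frac (WH0 Γ₀(4))` whose
`q`-expansion is `μ₄`. -/
theorem exists_qExpFF_eq_mu4 :
    ∃ μ : WH0.FunField (Gamma0 4), qExpFF 4 μ = castK ℂ mu4 := by
  have h1 : castK ℂ mu4 ∈ modularFunctionFieldFullC ℂ 4 :=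
    mu4_mem_fullC ℂ 4 intClosureToC two_ne_zero dvd_rfl
  have h2 := fullC_le_fieldRange_qExpFF 4 h1
  rw [RingHom.mem_fieldRange] at h2
  exact h2

/-- `j` in the function field of `Γ₀(4)` -/
abbrev jFF4 : WH0.FunField (Gamma0 4) :=
  algebraMap (WH0 (Gamma0 4)) (WH0.FunField (Gamma0 4)) (jWH0 4)

lemma qExpFF_jFF4 : qExpFF 4 jFF4 = jqModC ℂ := by
  rw [jFF4, qExpFF_algebraMap]
  exact laurentExp_jInv

/-- the modular relation of level `4` in the function field -/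
theorem jFF4_mul_of_qExpFF {μ : WH0.FunField (Gamma0 4)} (hμ : qExpFF 4 μ = castK ℂ mu4) :
    jFF4 * (μ ^ 4 * (μ + 16)) = (μ ^ 2 + 256 * μ + 4096) ^ 3 := by
  apply qExpFF_injective 4
  have h16 : qExpFF 4 (16 : WH0.FunField (Gamma0 4)) = 16 := map_ofNat (qExpFF 4) 16
  have h256 : qExpFF 4 (256 : WH0.FunField (Gamma0 4)) = 256 := map_ofNat (qExpFF 4) 256
  have h4096 : qExpFF 4 (4096 : WH0.FunField (Gamma0 4)) = 4096 := map_ofNat (qExpFF 4) 4096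
  simp only [RingHom.map_mul, RingHom.map_pow, RingHom.map_add, h16, h256, h4096, hμ, qExpFF_jFF4]
  exact castK_JL_mul_mu4 ℂ

/-- the (monic, degree six) modular polynomial of the Hauptmodul `μ₄` over `ℂ[j]` -/
def relPoly4 : ℂ[X][X] :=
  (X ^ 2 + C 256 * X + C 4096) ^ 3 - C (X : ℂ[X]) * (X ^ 4 * (X + C 16))

lemma monic_relPoly4 : relPoly4.Monic := by
  unfold relPoly4
  monicity!

lemma algebraMap_X_FF4 :
    algebraMap ℂ[X] (WH0.FunField (Gamma0 4)) X = jFF4 := by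
  rw [IsScalarTower.algebraMap_apply ℂ[X] (WH0 (Gamma0 4)) (WH0.FunField (Gamma0 4)),
    algebraMap_X_eq_jWH0]

lemma aeval_relPoly4 (μ : WH0.FunField (Gamma0 4)) :
    aeval μ relPoly4 = (μ ^ 2 + 256 * μ + 4096) ^ 3 - jFF4 * (μ ^ 4 * (μ + 16)) := by
  unfold relPoly4
  simp only [map_sub, map_pow, map_add, map_mul, aeval_X, aeval_C, algebraMap_X_FF4, map_ofNat]

/-- **the Hauptmodul is a holomorphic function on `ℍ`**: an element of the function field with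
`q`-expansion `μ₄` lies in `WH0 Γ₀(4)`. -/
theorem exists_mu4WH0 : ∃ m : ↥(WH0 (Gamma0 4)),
    jWH0 4 * (m ^ 4 * (m + 16)) = (m ^ 2 + 256 * m + 4096) ^ 3 := by
  obtain ⟨μ, hμ⟩ := exists_qExpFF_eq_mu4
  have hrel := jFF4_mul_of_qExpFF hμ
  have hint : IsIntegral ℂ[X] μ :=
    ⟨relPoly4, monic_relPoly4, by
      rw [← aeval_def, aeval_relPoly4, hrel, sub_self]⟩
  obtain ⟨m, hm⟩ := (IsIntegralClosure.isIntegral_iff (A := ↥(WH0 (Gamma0 4)))).mp hint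
  refine ⟨m, ?_⟩
  apply IsFractionRing.injective (↥(WH0 (Gamma0 4))) (WH0.FunField (Gamma0 4))
  simp only [map_mul, map_pow, map_add, map_ofNat, hm]
  exact hrel

/-- the Hauptmodul `μ₄ = (η(z)/η(4z))⁸` of `Γ₀(4)` as an element of `WH0 Γ₀(4)` -/
def mu4WH0 : ↥(WH0 (Gamma0 4)) := exists_mu4WH0.choose

lemma jWH0_mul_mu4WH0 :
    jWH0 4 * (mu4WH0 ^ 4 * (mu4WH0 + 16)) = (mu4WH0 ^ 2 + 256 * mu4WH0 + 4096) ^ 3 :=
  exists_mu4WH0.choose_spec

/-- the modular relation of level `4`, pointwise on `ℍ` -/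
lemma jInv_mul_mu4WH0 (τ : ℍ) :
    LevelOne.jInv τ * ((mu4WH0 : ℍ → ℂ) τ ^ 4 * ((mu4WH0 : ℍ → ℂ) τ + 16)) =
      ((mu4WH0 : ℍ → ℂ) τ ^ 2 + 256 * (mu4WH0 : ℍ → ℂ) τ + 4096) ^ 3 := by
  have h := congrArg (fun f : ↥(WH0 (Gamma0 4)) => (f : ℍ → ℂ) τ) jWH0_mul_mu4WH0
  have e16 : ((16 : ↥(WH0 (Gamma0 4))) : ℍ → ℂ) τ = 16 := rfl
  have e256 : ((256 : ↥(WH0 (Gamma0 4))) : ℍ → ℂ) τ = 256 := rfl
  have e4096 : ((4096 : ↥(WH0 (Gamma0 4))) : ℍ → ℂ) τ = 4096 := rfl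
  simpa [jWH0, e16, e256, e4096] using h

/-- **the Hauptmodul of `Γ₀(4)` normalised to omit `0` and `1`**: `u₄ = -μ₄/16`. -/
def u4 : ↥(WH0 (Gamma0 4)) := (-(1 / 16 : ℂ)) • mu4WH0

lemma u4_apply (τ : ℍ) : (u4 : ℍ → ℂ) τ = -(mu4WH0 : ℍ → ℂ) τ / 16 := by
  show (-(1 / 16 : ℂ)) • (mu4WH0 : ℍ → ℂ) τ = _
  rw [smul_eq_mul]
  ring

/-- **the relation between `j` and the Hauptmodul**: `j u⁴ (1 - u) = 16 (u² - 16 u + 16)³`. -/
theorem jInv_mul_u4 (τ : ℍ) :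
    LevelOne.jInv τ * ((u4 : ℍ → ℂ) τ ^ 4 * (1 - (u4 : ℍ → ℂ) τ)) =
      16 * ((u4 : ℍ → ℂ) τ ^ 2 - 16 * (u4 : ℍ → ℂ) τ + 16) ^ 3 := by
  have h := jInv_mul_mu4WH0 τ
  rw [u4_apply]
  linear_combination (1 / 1048576 : ℂ) * h

/-- the Hauptmodul omits the value `0` on `ℍ` -/
theorem u4_ne_zero (τ : ℍ) : (u4 : ℍ → ℂ) τ ≠ 0 := by
  intro h0
  have h := jInv_mul_u4 τ
  rw [h0] at h
  norm_num at h

/-- the Hauptmodul omits the value `1` on `ℍ` -/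
theorem u4_ne_one (τ : ℍ) : (u4 : ℍ → ℂ) τ ≠ 1 := by
  intro h1
  have h := jInv_mul_u4 τ
  rw [h1] at h
  norm_num at h

theorem u4_mdiff : MDifferentiable 𝓘(ℂ) 𝓘(ℂ) (u4 : ℍ → ℂ) := (mem_WH0.mp u4.2).mdiff

theorem u4_smul (γ : SL(2, ℤ)) (hγ : γ ∈ Gamma0 4) (τ : ℍ) :
    (u4 : ℍ → ℂ) (γ • τ) = (u4 : ℍ → ℂ) τ := (mem_WH0.mp u4.2).smul_eq γ hγ τ

/-- `j` as a rational function of the Hauptmodul -/
theorem jInv_eq_div_u4 (τ : ℍ) :
    LevelOne.jInv τ = 16 * ((u4 : ℍ → ℂ) τ ^ 2 - 16 * (u4 : ℍ → ℂ) τ + 16) ^ 3 /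
      ((u4 : ℍ → ℂ) τ ^ 4 * (1 - (u4 : ℍ → ℂ) τ)) := by
  rw [eq_div_iff (mul_ne_zero (pow_ne_zero 4 (u4_ne_zero τ))
    (sub_ne_zero.mpr (Ne.symm (u4_ne_one τ))))]
  exact jInv_mul_u4 τ

/-- the Hauptmodul takes infinitely many values -/
theorem infinite_range_u4 : (Set.range (u4 : ℍ → ℂ)).Infinite := by
  intro hfin
  set f : ℂ → ℂ := fun c => 16 * (c ^ 2 - 16 * c + 16) ^ 3 / (c ^ 4 * (1 - c)) with hf
  have h2 : Set.range LevelOne.jInv ⊆ f '' Set.range (u4 : ℍ → ℂ) := by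
    rintro _ ⟨τ, rfl⟩
    exact ⟨(u4 : ℍ → ℂ) τ, ⟨τ, rfl⟩, (jInv_eq_div_u4 τ).symm⟩
  have h3 : (Set.range LevelOne.jInv).Finite := (hfin.image f).subset h2
  rw [LevelOne.jInv_surjective.range_eq] at h3
  exact Set.infinite_univ h3

end Fermat.Agent.S27lib.D3
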