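/-
S27lib / D3 / FibAlg (helper2).

Algebra of the fibres of `β` on the points of a finite free `ℂ[X]`-algebra `B`:
* `ncard_fib_le` : every fibre is finite with at most `rk B` points;
* `exists_separating` : finitely many distinct points are separated by one element `y`;
* `Dy_eval_ne_zero` : if `y` separates `rk B` points over `c`, the power determinant of `y` does not
  vanish at `c` (Vandermonde);
* `monic_roots_of_injective` : a monic polynomial of degree `d` with `d` distinct roots has no other
  root and all its roots are simple.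
-/
import Mathlib
import Fermat.Agent.S27lib.D3.PtOfRoot

set_option autoImplicit false
set_option linter.unusedSectionVars false

noncomputable section

namespace Fermat.Agent.S27lib.D3

open Polynomial Matrix

variable (B : Type) [CommRing B] [Algebra ℂ[X] B] [Algebra ℂ B] [IsScalarTower ℂ ℂ[X] B]
  [Module.Finite ℂ[X] B] [Module.Free ℂ[X] B]

/-! ### finiteness of the fibres -/

/-- `ℂ` as a `ℂ[X]`-algebra through evaluation at `c` -/
def EvalAt (_c : ℂ) : Type := ℂ

instance (c : ℂ) : CommRing (EvalAt c) := inferInstanceAs (CommRing ℂ)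
instance (c : ℂ) : IsDomain (EvalAt c) := inferInstanceAs (IsDomain ℂ)
instance (c : ℂ) : Algebra ℂ[X] (EvalAt c) := (evalRingHom c).toAlgebra

lemma EvalAt.algebraMap_apply (c : ℂ) (q : ℂ[X]) :
    algebraMap ℂ[X] (EvalAt c) q = (q.eval c : ℂ) := rfl

variable {B}

/-- a point over `c` as a `ℂ[X]`-algebra homomorphism to `EvalAt c` -/
def Pt.toEvalAt {c : ℂ} (p : Pt B) (hp : p ∈ Fib B c) : B →ₐ[ℂ[X]] EvalAt c where
  toFun b := (p b : ℂ)
  map_one' := map_one p
  map_mul' := map_mul p
  map_zero' := map_zero p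
  map_add' := map_add p
  commutes' q := Pt.apply_algebraMap hp q

variable (B)

theorem ncard_fib_le (c : ℂ) : (Fib B c).ncard ≤ Module.finrank ℂ[X] B ∧ (Fib B c).Finite := by
  let f : Fib B c → (B →ₐ[ℂ[X]] EvalAt c) := fun p => Pt.toEvalAt p.1 p.2
  have hf : Function.Injective f := by
    intro p p' h
    apply Subtype.ext
    ext b
    exact congrArg (fun g : B →ₐ[ℂ[X]] EvalAt c => g b) h
  have hfin : Finite (Fib B c) := Finite.of_injective f hf
  refine ⟨?_, Set.toFinite _⟩
  calc (Fib B c).ncard = Nat.card (Fib B c) := (Nat.card_coe_set_eq _).symm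
    _ ≤ Nat.card (B →ₐ[ℂ[X]] EvalAt c) := Nat.card_le_card_of_injective f hf
    _ ≤ Module.finrank ℂ[X] B := card_algHom_le_finrank ℂ[X] B (EvalAt c)

variable {B}

/-! ### a separating element -/

theorem exists_separating {n : ℕ} (p : Fin n → Pt B) (hp : Function.Injective p) :
    ∃ y : B, Function.Injective fun k => p k y := by
  let ι := {ij : Fin n × Fin n // ij.1 ≠ ij.2}
  let f : ι → Module.Dual ℂ B := fun ij => (p ij.1.1).toLinearMap - (p ij.1.2).toLinearMap
  have h : ∀ i : ι, ∃ x, f i x ≠ 0 := by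
    rintro ⟨⟨i, j⟩, hij⟩
    have hne : p i ≠ p j := fun h => hij (hp h)
    obtain ⟨x, hx⟩ := DFunLike.ne_iff.mp hne
    exact ⟨x, by simpa [f, sub_eq_zero] using hx⟩
  obtain ⟨y, hy⟩ := Module.Dual.exists_forall_ne_zero_of_forall_exists f h
  refine ⟨y, fun i j hij => ?_⟩
  by_contra hne
  have := hy ⟨(i, j), hne⟩
  simp only [f, LinearMap.sub_apply, AlgHom.toLinearMap_apply] at this
  exact this (sub_eq_zero.mpr hij)

/-! ### the Vandermonde argument -/

theorem Dy_eval_ne_zero {c : ℂ} (p : Fin (rk B) → Pt B) (hp : ∀ k, p k ∈ Fib B c) (y : B)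
    (hy : Function.Injective fun k => p k y) : (Dy B y).eval c ≠ 0 := by
  classical
  set W : Matrix (Fin (rk B)) (Fin (rk B)) ℂ := fun k i => p k (bas B i) with hW
  set M' : Matrix (Fin (rk B)) (Fin (rk B)) ℂ := (evalRingHom c).mapMatrix (powMat B y) with hM'
  have hV : Matrix.vandermonde (fun k => p k y) = W * M' := by
    ext k j
    rw [Matrix.vandermonde_apply, Matrix.mul_apply, ← map_pow]
    conv_lhs => rw [← (bas B).sum_repr (y ^ (j : ℕ)), map_sum]
    refine Finset.sum_congr rfl fun i _ => ?_
    rw [Pt.apply_smul (hp k), mul_comm]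
    rfl
  have hdet : (Matrix.vandermonde (fun k => p k y)).det ≠ 0 :=
    Matrix.det_vandermonde_ne_zero_iff.mpr hy
  rw [hV, Matrix.det_mul] at hdet
  have h2 : M'.det = (Dy B y).eval c := by
    rw [hM', ← RingHom.map_det]
    rfl
  rw [h2] at hdet
  exact right_ne_zero_of_mul hdet

/-! ### monic polynomials with the maximal number of distinct roots -/

theorem monic_roots_of_injective {d : ℕ} (q : ℂ[X]) (hq : q.Monic) (hd : q.natDegree = d)
    (r : Fin d → ℂ) (hr : Function.Injective r) (h0 : ∀ k, q.eval (r k) = 0) :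
    (∀ x, q.eval x = 0 → ∃ k, x = r k) ∧ ∀ k, (derivative q).eval (r k) ≠ 0 := by
  classical
  have hq0 : q ≠ 0 := hq.ne_zero
  set S : Finset ℂ := Finset.univ.image r with hS
  have hScard : S.card = d := by
    rw [hS, Finset.card_image_of_injective _ hr, Finset.card_univ, Fintype.card_fin]
  have hle : S.val ≤ q.roots := by
    rw [Multiset.le_iff_subset S.nodup]
    intro x hx
    have hx' : x ∈ S := hx
    rw [hS, Finset.mem_image] at hx'
    obtain ⟨k, -, rfl⟩ := hx'
    exact (mem_roots hq0).mpr (h0 k)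
  have hroots : S.val = q.roots := by
    refine Multiset.eq_of_le_of_card_le hle ?_
    calc q.roots.card ≤ q.natDegree := card_roots' q
      _ = d := hd
      _ = S.val.card := hScard.symm
  refine ⟨fun x hx => ?_, fun k hk => ?_⟩
  · have : x ∈ q.roots := (mem_roots hq0).mpr hx
    rw [← hroots] at this
    have hx' : x ∈ S := this
    rw [hS, Finset.mem_image] at hx'
    obtain ⟨k, -, rfl⟩ := hx'
    exact ⟨k, rfl⟩
  · have h1 : 1 < q.rootMultiplicity (r k) :=
      (one_lt_rootMultiplicity_iff_isRoot hq0).mpr ⟨h0 k, hk⟩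
    rw [← count_roots, ← hroots] at h1
    have h2 : Multiset.count (r k) S.val ≤ 1 := Multiset.nodup_iff_count_le_one.mp S.nodup _
    omega

end Fermat.Agent.S27lib.D3
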