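/-
S27lib / D3 / LocalSec (helper2).

**(S)** local holomorphic sections of `β : Pt B → ℂ` near an unramified value `c₀` (one over which the
fibre has the maximal number `rk B` of points), for a finite free `ℂ[X]`-algebra `B`.
The sections are `c ↦ ptOfRoot y c (Y_k c)` where `y` separates the points over `c₀` and the `Y_k` are
the holomorphic roots of the characteristic polynomial of `y` given by the implicit function theorem.
-/
import Mathlib
import Fermat.Agent.S27lib.D3.FibAlg

set_option autoImplicit false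
set_option linter.unusedSectionVars false

noncomputable section

namespace Fermat.Agent.S27lib.D3

open Polynomial Matrix
open scoped Topology

/-! ### analytic preliminaries -/

theorem contDiff_evalEval (g : ℂ[X][X]) (n : WithTop ℕ∞) :
    ContDiff ℂ n (fun u : ℂ × ℂ => g.evalEval u.1 u.2) := by
  induction g using Polynomial.induction_on' with
  | add f g hf hg =>
    simp only [evalEval_add]
    exact hf.add hg
  | monomial m a =>
    have h : ∀ u : ℂ × ℂ, (monomial m a : ℂ[X][X]).evalEval u.1 u.2 = aeval u.1 a * u.2 ^ m := by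
      intro u
      rw [← C_mul_X_pow_eq_monomial, evalEval_mul, evalEval_C, evalEval_pow, evalEval_X]
      rfl
    simp only [h]
    exact ((a.contDiff_aeval n).comp contDiff_fst).mul (contDiff_snd.pow m)

theorem isInvertible_of_apply_one_ne_zero (L : ℂ →L[ℂ] ℂ) (h : L 1 ≠ 0) : L.IsInvertible := by
  refine ContinuousLinearMap.IsInvertible.of_inverse
    (g := (L 1)⁻¹ • ContinuousLinearMap.id ℂ ℂ) ?_ ?_
  · ext
    simp [h]
  · ext
    simp [h]

/-- the partial derivative of `(c, r) ↦ P(c, r)` in `r` -/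
theorem fderiv_evalEval_inr (P : ℂ[X][X]) (c₀ r₀ : ℂ) :
    (fderiv ℂ (fun u : ℂ × ℂ => P.evalEval u.1 u.2) (c₀, r₀) ∘L ContinuousLinearMap.inr ℂ ℂ ℂ) 1 =
      (derivative P).evalEval c₀ r₀ := by
  set f : ℂ × ℂ → ℂ := fun u => P.evalEval u.1 u.2 with hf
  have hdiff : DifferentiableAt ℂ f (c₀, r₀) :=
    ((contDiff_evalEval P 1).differentiable one_ne_zero) _
  have h1 : HasFDerivAt (fun r : ℂ => f (c₀, r))
      (fderiv ℂ f (c₀, r₀) ∘L ContinuousLinearMap.inr ℂ ℂ ℂ) r₀ :=
    hdiff.hasFDerivAt.comp r₀ (hasFDerivAt_prodMk_right c₀ r₀)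
  have h2 : HasDerivAt (fun r : ℂ => f (c₀, r))
      ((derivative (P.map (evalRingHom c₀))).eval r₀) r₀ := by
    have := (P.map (evalRingHom c₀)).hasDerivAt r₀
    refine this.congr_of_eventuallyEq (Filter.Eventually.of_forall fun r => ?_)
    simp only [hf]
    rw [map_evalRingHom_eval]
  have h3 := h1.hasDerivAt.unique h2
  rw [h3, derivative_map, map_evalRingHom_eval]

/-- **implicit function theorem** for a simple root of a bivariate polynomial -/
theorem exists_holomorphic_root (P : ℂ[X][X]) (c₀ r₀ : ℂ) (h0 : P.evalEval c₀ r₀ = 0)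
    (h1 : (derivative P).evalEval c₀ r₀ ≠ 0) :
    ∃ Y : ℂ → ℂ, Y c₀ = r₀ ∧
      ∀ᶠ c in 𝓝 c₀, DifferentiableAt ℂ Y c ∧ P.evalEval c (Y c) = 0 := by
  set f : ℂ × ℂ → ℂ := fun u => P.evalEval u.1 u.2 with hf
  have cdf : ContDiffAt ℂ 1 f (c₀, r₀) := (contDiff_evalEval P 1).contDiffAt
  have if₂ : (fderiv ℂ f (c₀, r₀) ∘L ContinuousLinearMap.inr ℂ ℂ ℂ).IsInvertible := by
    apply isInvertible_of_apply_one_ne_zero
    rw [hf, fderiv_evalEval_inr]
    exact h1
  refine ⟨cdf.implicitFunction one_ne_zero if₂, cdf.implicitFunction_apply_self one_ne_zero if₂, ?_⟩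
  have e1 := cdf.eventually_apply_implicitFunction one_ne_zero if₂
  have e2 := (cdf.contDiffAt_implicitFunction one_ne_zero if₂).eventually (by simp)
  filter_upwards [e1, e2] with c hc1 hc2
  refine ⟨hc2.differentiableAt one_ne_zero, ?_⟩
  have : f (c, cdf.implicitFunction one_ne_zero if₂ c) = f (c₀, r₀) := hc1
  simpa only [hf, h0] using this

theorem differentiableAt_evalEval_comp (g : ℂ[X][X]) {Y : ℂ → ℂ} {c : ℂ}
    (hY : DifferentiableAt ℂ Y c) : DifferentiableAt ℂ (fun c => g.evalEval c (Y c)) c := by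
  have h1 : DifferentiableAt ℂ (fun u : ℂ × ℂ => g.evalEval u.1 u.2) (c, Y c) :=
    ((contDiff_evalEval g 1).differentiable one_ne_zero) _
  have h2 : DifferentiableAt ℂ (fun c : ℂ => (c, Y c)) c := differentiableAt_id.prodMk hY
  exact h1.comp c h2

/-! ### the local sections -/

variable (B : Type) [CommRing B] [Algebra ℂ[X] B] [Algebra ℂ B] [IsScalarTower ℂ ℂ[X] B]
  [Module.Finite ℂ[X] B] [Module.Free ℂ[X] B]

lemma ptOfRoot_congr [Nontrivial B] (y : B) (c : ℂ) {r r' : ℂ} (hD : (Dy B y).eval c ≠ 0)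
    (hr : (Py B y).evalEval c r = 0) (hr' : (Py B y).evalEval c r' = 0) (h : r = r') :
    ptOfRoot B y c r hD hr = ptOfRoot B y c r' hD hr' := by
  subst h
  rfl

lemma subsingleton_of_rk_eq_zero (hd : rk B = 0) : Subsingleton B := by
  refine ⟨fun a b => ?_⟩
  have h0 : ∀ x : B, x = 0 := by
    intro x
    rw [← (bas B).sum_repr x]
    exact Finset.sum_eq_zero fun i _ => (Fin.cast hd i).elim0
  rw [h0 a, h0 b]

lemma Pt.isEmpty_of_subsingleton [Subsingleton B] : IsEmpty (Pt B) := by
  refine ⟨fun p => ?_⟩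
  have h1 : p 1 = 1 := map_one p
  have h0 : p 0 = 0 := map_zero p
  rw [Subsingleton.elim (1 : B) 0, h0] at h1
  exact zero_ne_one h1

/-- the roots of the characteristic polynomial of `y` at `c`, when they are as many as possible -/
lemma Py_roots [Nontrivial B] (y : B) (c : ℂ) (r : Fin (rk B) → ℂ) (hr : Function.Injective r)
    (h0 : ∀ k, (Py B y).evalEval c (r k) = 0) :
    (∀ x, (Py B y).evalEval c x = 0 → ∃ k, x = r k) ∧
      ∀ k, (derivative (Py B y)).evalEval c (r k) ≠ 0 := by
  set q : ℂ[X] := (Py B y).map (evalRingHom c) with hq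
  have hmon : q.Monic := (Py_monic B y).map _
  have hdeg : q.natDegree = rk B := by
    rw [hq, (Py_monic B y).natDegree_map, Py_natDegree]
  have hq0 : ∀ k, q.eval (r k) = 0 := fun k => by rw [hq, map_evalRingHom_eval]; exact h0 k
  obtain ⟨h1, h2⟩ := monic_roots_of_injective q hmon hdeg r hr hq0
  refine ⟨fun x hx => h1 x (by rw [hq, map_evalRingHom_eval]; exact hx), fun k => ?_⟩
  have := h2 k
  rwa [hq, derivative_map, map_evalRingHom_eval] at this

/-- **(S)** local sections near an unramified value `c₀` -/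
theorem exists_local_sections (c₀ : ℂ) (h : (Fib B c₀).ncard = Module.finrank ℂ[X] B) :
    ∃ ε : ℝ, 0 < ε ∧ ∃ s : Fin (Module.finrank ℂ[X] B) → ℂ → Pt B,
      (∀ k, ∀ c ∈ Metric.ball c₀ ε, s k c ∈ Fib B c) ∧
      (∀ k (b : B), DifferentiableOn ℂ (fun c => s k c b) (Metric.ball c₀ ε)) ∧
      (∀ c ∈ Metric.ball c₀ ε, Function.Injective fun k => s k c) ∧
      (∀ c ∈ Metric.ball c₀ ε, ∀ p ∈ Fib B c, ∃ k, p = s k c) := by
  classical
  rcases Nat.eq_zero_or_pos (Module.finrank ℂ[X] B) with hd | hd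
  · have hsub : Subsingleton B := subsingleton_of_rk_eq_zero B hd
    have hemp : IsEmpty (Pt B) := Pt.isEmpty_of_subsingleton B
    refine ⟨1, one_pos, fun k => (Fin.cast hd k).elim0, fun k => (Fin.cast hd k).elim0,
      fun k => (Fin.cast hd k).elim0, fun c _ k => (Fin.cast hd k).elim0,
      fun c _ p => hemp.elim p⟩
  have hnt : Nontrivial B := Module.nontrivial_of_finrank_pos (R := ℂ[X]) hd
  -- enumerate the fibre over `c₀`
  have hfin : (Fib B c₀).Finite := (ncard_fib_le B c₀).2
  have hcard : hfin.toFinset.card = rk B := by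
    rw [← Set.ncard_eq_toFinset_card (Fib B c₀) hfin]; exact h
  let e : hfin.toFinset ≃ Fin (rk B) := Finset.equivFinOfCardEq hcard
  set p : Fin (rk B) → Pt B := fun k => (e.symm k).1 with hp
  have hp_inj : Function.Injective p := Subtype.val_injective.comp e.symm.injective
  have hp_mem : ∀ k, p k ∈ Fib B c₀ := fun k => hfin.mem_toFinset.mp (e.symm k).2
  obtain ⟨y, hy⟩ := exists_separating p hp_inj
  have hD₀ : (Dy B y).eval c₀ ≠ 0 := Dy_eval_ne_zero p hp_mem y hy
  have hroot₀ : ∀ k, (Py B y).evalEval c₀ (p k y) = 0 := fun k => Pt.evalEval_Py (hp_mem k) y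
  obtain ⟨-, hsimple⟩ := Py_roots B y c₀ (fun k => p k y) hy hroot₀
  choose Y hY0 hYev using fun k =>
    exists_holomorphic_root (Py B y) c₀ (p k y) (hroot₀ k) (hsimple k)
  -- the good neighbourhood
  have hYcont : ∀ k, ContinuousAt (Y k) c₀ := fun k =>
    ((hYev k).self_of_nhds).1.continuousAt
  have ev1 : ∀ᶠ c in 𝓝 c₀, ∀ k, DifferentiableAt ℂ (Y k) c ∧ (Py B y).evalEval c (Y k c) = 0 :=
    Filter.eventually_all.mpr hYev
  have ev2 : ∀ᶠ c in 𝓝 c₀, (Dy B y).eval c ≠ 0 :=
    (Dy B y).continuous.continuousAt.eventually_ne hD₀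
  have ev3 : ∀ᶠ c in 𝓝 c₀, Function.Injective fun k => Y k c := by
    have : ∀ᶠ c in 𝓝 c₀, ∀ kl : Fin (rk B) × Fin (rk B), kl.1 ≠ kl.2 → Y kl.1 c ≠ Y kl.2 c := by
      refine Filter.eventually_all.mpr fun kl => ?_
      by_cases hkl : kl.1 = kl.2
      · exact Filter.Eventually.of_forall fun c hne => absurd hkl hne
      · have hne : Y kl.1 c₀ - Y kl.2 c₀ ≠ 0 := by
          rw [hY0, hY0]
          exact sub_ne_zero.mpr fun h => hkl (hy h)
        have := ((hYcont kl.1).sub (hYcont kl.2)).eventually_ne hne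
        filter_upwards [this] with c hc _
        exact sub_ne_zero.mp hc
    filter_upwards [this] with c hc k l hkl
    by_contra hne
    exact hc (k, l) hne hkl
  obtain ⟨ε, hε, hball⟩ := Metric.eventually_nhds_iff_ball.mp (ev1.and (ev2.and ev3))
  -- the sections
  let s : Fin (rk B) → ℂ → Pt B := fun k c =>
    if hc : (Dy B y).eval c ≠ 0 ∧ (Py B y).evalEval c (Y k c) = 0 then
      ptOfRoot B y c (Y k c) hc.1 hc.2 else p k
  have hs : ∀ k, ∀ c (hc : c ∈ Metric.ball c₀ ε),
      s k c = ptOfRoot B y c (Y k c) (hball c hc).2.1 ((hball c hc).1 k).2 := by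
    intro k c hc
    exact dif_pos ⟨(hball c hc).2.1, ((hball c hc).1 k).2⟩
  refine ⟨ε, hε, s, ?_, ?_, ?_, ?_⟩
  · intro k c hc
    rw [hs k c hc]
    exact ptOfRoot_mem_fib B y c _ _ _
  · intro k b c hc
    apply DifferentiableAt.differentiableWithinAt
    have hev : (fun c => s k c b) =ᶠ[𝓝 c]
        fun c => (gOf B y b).evalEval c (Y k c) / (Dy B y).eval c := by
      filter_upwards [Metric.isOpen_ball.mem_nhds hc] with c' hc'
      show s k c' b = _
      rw [hs k c' hc', ptOfRoot_apply]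
    refine DifferentiableAt.congr_of_eventuallyEq ?_ hev
    exact (differentiableAt_evalEval_comp _ ((hball c hc).1 k).1).div
      (Dy B y).differentiableAt (hball c hc).2.1
  · intro c hc k l hkl
    have h1 : s k c y = s l c y := congrArg (fun q : Pt B => q y) hkl
    rw [hs k c hc, hs l c hc, ptOfRoot_apply_self, ptOfRoot_apply_self] at h1
    exact (hball c hc).2.2 h1
  · intro c hc p' hp'
    obtain ⟨hex, -⟩ := Py_roots B y c (fun k => Y k c) (hball c hc).2.2
      (fun k => ((hball c hc).1 k).2)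
    obtain ⟨k, hk⟩ := hex (p' y) (Pt.evalEval_Py hp' y)
    refine ⟨k, ?_⟩
    rw [hs k c hc, Pt.eq_ptOfRoot hp' y (hball c hc).2.1]
    exact ptOfRoot_congr B y c _ _ _ hk

end Fermat.Agent.S27lib.D3
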