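/-
S27lib / D3 / Covering (helper2).

**(C)** the topology of pointwise convergence on `Pt B`, and the fact that `β : Pt B → ℂ` is a covering
map over the unramified locus `{c | (Fib B c).ncard = rk B}` (the sheets are the images of the local
sections of `LocalSec.lean`).
-/
import Mathlib
import Fermat.Agent.S27lib.D3.LocalSec

set_option autoImplicit false
set_option linter.unusedSectionVars false

noncomputable section

namespace Fermat.Agent.S27lib.D3

open Polynomial
open scoped Topology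

variable (B : Type) [CommRing B] [Algebra ℂ[X] B] [Algebra ℂ B] [IsScalarTower ℂ ℂ[X] B]
  [Module.Finite ℂ[X] B] [Module.Free ℂ[X] B]

/-- the topology of pointwise convergence on the points of `B` -/
@[instance_reducible] def Pt.topology : TopologicalSpace (Pt B) :=
  TopologicalSpace.induced (fun p (b : B) => p b) Pi.topologicalSpace

attribute [local instance] Pt.topology

variable {B}

lemma Pt.continuous_apply (b : B) : Continuous fun p : Pt B => p b :=
  (_root_.continuous_apply b).comp continuous_induced_dom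

lemma Pt.continuous_iff {α : Type*} [TopologicalSpace α] (f : α → Pt B) :
    Continuous f ↔ ∀ b : B, Continuous fun a => f a b :=
  continuous_induced_rng.trans continuous_pi_iff

variable (B)

lemma Pt.t2Space : T2Space (Pt B) :=
  T2Space.of_injective_continuous (f := fun (p : Pt B) (b : B) => p b)
    (fun _ _ h => DFunLike.coe_injective h) continuous_induced_dom

/-- the projection `β : Pt B → ℂ` -/
def proj : Pt B → ℂ := fun p => p (beta B)

lemma proj_apply (p : Pt B) : proj B p = p (beta B) := rfl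

lemma continuous_proj : Continuous (proj B) := Pt.continuous_apply (beta B)

lemma mem_fib_proj (p : Pt B) : p ∈ Fib B (proj B p) := rfl

/-- local section data over the ball `ball c₀ ε` -/
structure IsSecData (c₀ : ℂ) (ε : ℝ) (s : Fin (rk B) → ℂ → Pt B) : Prop where
  mem : ∀ k, ∀ c ∈ Metric.ball c₀ ε, s k c ∈ Fib B c
  diff : ∀ k (b : B), DifferentiableOn ℂ (fun c => s k c b) (Metric.ball c₀ ε)
  inj : ∀ c ∈ Metric.ball c₀ ε, Function.Injective fun k => s k c
  exh : ∀ c ∈ Metric.ball c₀ ε, ∀ p ∈ Fib B c, ∃ k, p = s k c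

theorem exists_secData (c₀ : ℂ) (h : (Fib B c₀).ncard = rk B) :
    ∃ ε : ℝ, 0 < ε ∧ ∃ s : Fin (rk B) → ℂ → Pt B, IsSecData B c₀ ε s := by
  obtain ⟨ε, hε, s, h1, h2, h3, h4⟩ := exists_local_sections B c₀ h
  exact ⟨ε, hε, s, ⟨h1, h2, h3, h4⟩⟩

variable {B}

/-- the `k`-th sheet over the ball -/
def sheet (c₀ : ℂ) (ε : ℝ) (s : Fin (rk B) → ℂ → Pt B) (k : Fin (rk B)) : Set (Pt B) :=
  {p | proj B p ∈ Metric.ball c₀ ε ∧ p = s k (proj B p)}

namespace IsSecData

variable {c₀ : ℂ} {ε : ℝ} {s : Fin (rk B) → ℂ → Pt B} (hs : IsSecData B c₀ ε s)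
include hs

lemma proj_sec (k : Fin (rk B)) {c : ℂ} (hc : c ∈ Metric.ball c₀ ε) : proj B (s k c) = c :=
  hs.mem k c hc

lemma continuousOn_sec (k : Fin (rk B)) (b : B) :
    ContinuousOn (fun p : Pt B => s k (proj B p) b) (proj B ⁻¹' Metric.ball c₀ ε) :=
  (hs.diff k b).continuousOn.comp (continuous_proj B).continuousOn fun _ hp => hp

lemma isOpen_ne (j : Fin (rk B)) (b : B) :
    IsOpen {p : Pt B | proj B p ∈ Metric.ball c₀ ε ∧ p b ≠ s j (proj B p) b} := by
  have hV : IsOpen (proj B ⁻¹' Metric.ball c₀ ε) := Metric.isOpen_ball.preimage (continuous_proj B)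
  have hg : ContinuousOn (fun p : Pt B => p b - s j (proj B p) b)
      (proj B ⁻¹' Metric.ball c₀ ε) :=
    (Pt.continuous_apply b).continuousOn.sub (hs.continuousOn_sec j b)
  have := hg.isOpen_inter_preimage hV (isOpen_compl_singleton (x := (0 : ℂ)))
  convert this using 1
  ext p
  simp only [Set.mem_ofPred_eq, Set.mem_inter_iff, Set.mem_preimage, Set.mem_compl_iff,
    Set.mem_singleton_iff, sub_eq_zero]

lemma sheet_eq (k : Fin (rk B)) :
    sheet c₀ ε s k = proj B ⁻¹' Metric.ball c₀ ε ∩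
      ⋂ j : {j : Fin (rk B) // j ≠ k}, ⋃ b : B,
        {p : Pt B | proj B p ∈ Metric.ball c₀ ε ∧ p b ≠ s j.1 (proj B p) b} := by
  ext p
  simp only [sheet, Set.mem_ofPred_eq, Set.mem_inter_iff, Set.mem_preimage, Set.mem_iInter,
    Set.mem_iUnion]
  constructor
  · rintro ⟨hp, hpk⟩
    refine ⟨hp, fun j => ?_⟩
    have hne : p ≠ s j.1 (proj B p) := by
      intro h
      have : s k (proj B p) = s j.1 (proj B p) := hpk.symm.trans h
      exact j.2 (hs.inj _ hp this).symm
    obtain ⟨b, hb⟩ := DFunLike.ne_iff.mp hne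
    exact ⟨b, hp, hb⟩
  · rintro ⟨hp, h⟩
    refine ⟨hp, ?_⟩
    obtain ⟨j, hj⟩ := hs.exh _ hp p (mem_fib_proj B p)
    by_cases hjk : j = k
    · rw [← hjk]; exact hj
    · obtain ⟨b, -, hb⟩ := h ⟨j, hjk⟩
      exact absurd (congrArg (fun q : Pt B => q b) hj) hb

lemma isOpen_sheet (k : Fin (rk B)) : IsOpen (sheet c₀ ε s k) := by
  rw [hs.sheet_eq k]
  refine (Metric.isOpen_ball.preimage (continuous_proj B)).inter ?_
  exact isOpen_iInter_of_finite fun j => isOpen_iUnion fun b => hs.isOpen_ne j.1 b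

lemma mem_sheet_sec (k : Fin (rk B)) {c : ℂ} (hc : c ∈ Metric.ball c₀ ε) :
    s k c ∈ sheet c₀ ε s k := by
  refine ⟨by rw [hs.proj_sec k hc]; exact hc, ?_⟩
  rw [hs.proj_sec k hc]

lemma sheet_disjoint {k l : Fin (rk B)} {p : Pt B} (hk : p ∈ sheet c₀ ε s k)
    (hl : p ∈ sheet c₀ ε s l) : k = l :=
  hs.inj _ hk.1 (hk.2.symm.trans hl.2)

lemma exists_mem_sheet {p : Pt B} (hp : proj B p ∈ Metric.ball c₀ ε) :
    ∃ k, p ∈ sheet c₀ ε s k := by
  obtain ⟨k, hk⟩ := hs.exh _ hp p (mem_fib_proj B p)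
  exact ⟨k, hp, hk⟩

/-- the sheet index of a point over the ball -/
def idx (e : proj B ⁻¹' Metric.ball c₀ ε) : Fin (rk B) :=
  Classical.choose (hs.exists_mem_sheet e.2)

lemma idx_spec (e : proj B ⁻¹' Metric.ball c₀ ε) : e.1 ∈ sheet c₀ ε s (hs.idx e) :=
  Classical.choose_spec (hs.exists_mem_sheet e.2)

lemma idx_eq_iff (e : proj B ⁻¹' Metric.ball c₀ ε) (k : Fin (rk B)) :
    hs.idx e = k ↔ e.1 ∈ sheet c₀ ε s k :=
  ⟨fun h => h ▸ hs.idx_spec e, fun h => hs.sheet_disjoint (hs.idx_spec e) h⟩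

/-- the trivialisation of `proj` over the ball -/
def homeo : proj B ⁻¹' Metric.ball c₀ ε ≃ₜ Metric.ball c₀ ε × Fin (rk B) where
  toFun e := (⟨proj B e.1, e.2⟩, hs.idx e)
  invFun ck := ⟨s ck.2 ck.1.1, by
    show proj B (s ck.2 ck.1.1) ∈ Metric.ball c₀ ε
    rw [hs.proj_sec ck.2 ck.1.2]; exact ck.1.2⟩
  left_inv e := by
    apply Subtype.ext
    exact (hs.idx_spec e).2.symm
  right_inv ck := by
    obtain ⟨⟨c, hc⟩, k⟩ := ck
    refine Prod.ext (Subtype.ext (hs.proj_sec k hc)) ?_
    exact (hs.idx_eq_iff _ k).mpr (hs.mem_sheet_sec k hc)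
  continuous_toFun := by
    refine Continuous.prodMk ?_ ?_
    · exact ((continuous_proj B).comp continuous_subtype_val).subtype_mk _
    · rw [continuous_discrete_rng]
      intro k
      have : hs.idx ⁻¹' {k} = Subtype.val ⁻¹' sheet c₀ ε s k := by
        ext e
        simp only [Set.mem_preimage, Set.mem_singleton_iff]
        exact hs.idx_eq_iff e k
      rw [this]
      exact (hs.isOpen_sheet k).preimage continuous_subtype_val
  continuous_invFun := by
    refine Continuous.subtype_mk ?_ _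
    rw [Pt.continuous_iff]
    intro b
    rw [continuous_prod_of_discrete_right]
    intro k
    exact continuousOn_iff_continuous_domRestrict.mp (hs.diff k b).continuousOn

lemma homeo_fst (e : proj B ⁻¹' Metric.ball c₀ ε) : ((hs.homeo e).1 : ℂ) = proj B e.1 := rfl

theorem isEvenlyCovered (hε : 0 < ε) : IsEvenlyCovered (proj B) c₀ (Fin (rk B)) :=
  ⟨inferInstance, Metric.ball c₀ ε, Metric.mem_ball_self hε, Metric.isOpen_ball,
    Metric.isOpen_ball.preimage (continuous_proj B), hs.homeo, fun e => hs.homeo_fst e⟩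

end IsSecData

variable (B)

/-- the unramified locus -/
def Unr : Set ℂ := {c | (Fib B c).ncard = rk B}

/-- **(C)** `β : Pt B → ℂ` is a covering map over the unramified locus -/
theorem isCoveringMapOn_proj : IsCoveringMapOn (proj B) (Unr B) := by
  intro c hc
  obtain ⟨ε, hε, s, hs⟩ := exists_secData B c hc
  exact (hs.isEvenlyCovered hε).to_isEvenlyCovered_preimage

end Fermat.Agent.S27lib.D3
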