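/-
S27lib / D3 / Lift (helper2).

**(L)** existence and uniqueness of holomorphic lifts `x : ℍ → Pt B` of a holomorphic function
`u : ℍ → ℂ` whose values are unramified, through the covering `β : Pt B → ℂ`
(`ℍ` is simply connected and locally path connected).
-/
import Mathlib
import Fermat.Agent.S27lib.D3.Covering
import Fermat.Agent.S27lib.D3.LiftDefs

set_option autoImplicit false
set_option linter.unusedSectionVars false

noncomputable section

namespace Fermat.Agent.S27lib.D3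

open Polynomial Fermat.Agent.ProgramR UpperHalfPlane
open scoped Topology MatrixGroups Manifold

variable (B : Type) [CommRing B] [Algebra ℂ[X] B] [Algebra ℂ B] [IsScalarTower ℂ ℂ[X] B]
  [Module.Finite ℂ[X] B] [Module.Free ℂ[X] B]

attribute [local instance] Pt.topology

variable {B}

/-- a continuous lift of a holomorphic function through the unramified locus is holomorphic -/
theorem isHolLift_of_continuous (u : ℍ → ℂ) (hu : MDifferentiable 𝓘(ℂ) 𝓘(ℂ) u)
    (hunr : ∀ τ, (Fib B (u τ)).ncard = Module.finrank ℂ[X] B)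
    (x : ℍ → Pt B) (hxc : Continuous x) (hxu : ∀ τ, proj B (x τ) = u τ) : IsHolLift B u x := by
  refine ⟨hxu, fun b τ₁ => ?_⟩
  obtain ⟨ε, hε, s, hs⟩ := exists_secData B (u τ₁) (hunr τ₁)
  have hmem : proj B (x τ₁) ∈ Metric.ball (u τ₁) ε := by
    rw [hxu]; exact Metric.mem_ball_self hε
  obtain ⟨k, hk⟩ := hs.exists_mem_sheet hmem
  have hN : x ⁻¹' sheet (u τ₁) ε s k ∈ 𝓝 τ₁ :=
    ((hs.isOpen_sheet k).preimage hxc).mem_nhds hk
  have hev : (fun τ => x τ b) =ᶠ[𝓝 τ₁] (fun c => s k c b) ∘ u := by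
    filter_upwards [hN] with τ hτ
    have h2 : x τ = s k (proj B (x τ)) := hτ.2
    rw [hxu] at h2
    show x τ b = s k (u τ) b
    rw [← h2]
  have hg : DifferentiableAt ℂ (fun c => s k c b) (u τ₁) :=
    (hs.diff k b).differentiableAt (Metric.isOpen_ball.mem_nhds (Metric.mem_ball_self hε))
  exact (hg.comp_mdifferentiableAt (hu τ₁)).congr_of_eventuallyEq hev

lemma IsHolLift.continuous {u : ℍ → ℂ} {x : ℍ → Pt B} (hx : IsHolLift B u x) : Continuous x :=
  (Pt.continuous_iff x).mpr fun b => (hx.mdiff b).continuous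

variable (B)

/-- **(L)** existence and uniqueness of lifts through the unramified locus -/
theorem exists_unique_holLift (u : ℍ → ℂ) (hu : MDifferentiable 𝓘(ℂ) 𝓘(ℂ) u)
    (hunr : ∀ τ, (Fib B (u τ)).ncard = Module.finrank ℂ[X] B)
    (τ₀ : ℍ) (p₀ : Pt B) (hp₀ : p₀ ∈ Fib B (u τ₀)) :
    ∃! x : ℍ → Pt B, IsHolLift B u x ∧ x τ₀ = p₀ := by
  let f : C(ℍ, ℂ) := ⟨u, hu.continuous⟩
  have he : proj B p₀ = f τ₀ := hp₀
  obtain ⟨F, ⟨hF0, hFf⟩, hFuniq⟩ :=
    (isCoveringMapOn_proj B).existsUnique_continuousMap_lifts f he (fun τ => hunr τ)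
  have hFu : ∀ τ, proj B (F τ) = u τ := fun τ => congrFun hFf τ
  refine ⟨F, ⟨isHolLift_of_continuous u hu hunr F F.continuous hFu, hF0⟩, ?_⟩
  rintro x ⟨hx, hx0⟩
  let X : C(ℍ, Pt B) := ⟨x, hx.continuous⟩
  have hX : X = F := hFuniq X ⟨hx0, funext fun τ => hx.map_beta τ⟩
  exact congrArg (fun G : C(ℍ, Pt B) => (G : ℍ → Pt B)) hX

/-- two lifts which agree at one point agree everywhere -/
theorem IsHolLift.eq_of_apply_eq {u : ℍ → ℂ} (hu : MDifferentiable 𝓘(ℂ) 𝓘(ℂ) u)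
    (hunr : ∀ τ, (Fib B (u τ)).ncard = Module.finrank ℂ[X] B) {x x' : ℍ → Pt B}
    (hx : IsHolLift B u x) (hx' : IsHolLift B u x') (τ₀ : ℍ) (h : x τ₀ = x' τ₀) : x = x' := by
  obtain ⟨y, -, hy⟩ := exists_unique_holLift B u hu hunr τ₀ (x τ₀) (hx.map_beta τ₀)
  rw [hy x ⟨hx, rfl⟩, hy x' ⟨hx', h.symm⟩]

end Fermat.Agent.S27lib.D3
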