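/-
S27lib / D3 / Stab (helper2).

**(G)** the stabiliser of a holomorphic lift `x` of a `G`-invariant function `u` has index at most
`rk B` in `G`: the cosets of the stabiliser inject into the fibre over `u τ₀` by `γ ↦ x (γ⁻¹ • τ₀)`.
-/
import Mathlib
import Fermat.Agent.S27lib.D3.Lift

set_option autoImplicit false
set_option linter.unusedSectionVars false

noncomputable section

namespace Fermat.Agent.S27lib.D3

open Polynomial Fermat.Agent.ProgramR UpperHalfPlane
open scoped Topology MatrixGroups Manifold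

variable (B : Type) [CommRing B] [Algebra ℂ[X] B] [Algebra ℂ B] [IsScalarTower ℂ ℂ[X] B]
  [Module.Finite ℂ[X] B] [Module.Free ℂ[X] B]

variable {B}

/-- the translate of a lift of a `γ`-invariant function is a lift -/
theorem IsHolLift.smul {u : ℍ → ℂ} {x : ℍ → Pt B} (hx : IsHolLift B u x) (γ : SL(2, ℤ))
    (hγ : ∀ τ, u (γ • τ) = u τ) : IsHolLift B u fun τ => x (γ • τ) :=
  ⟨fun τ => by rw [hx.map_beta, hγ], fun b => (Hol.slComp γ (hx.toHol B b)).2⟩

variable (B)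

/-- **(G)** the stabiliser of a lift has index at most `d` in `G` -/
theorem relIndex_stab_le (G : Subgroup SL(2, ℤ)) (u : ℍ → ℂ) (hu : MDifferentiable 𝓘(ℂ) 𝓘(ℂ) u)
    (hG : ∀ γ ∈ G, ∀ τ, u (γ • τ) = u τ)
    (hunr : ∀ τ, (Fib B (u τ)).ncard = Module.finrank ℂ[X] B)
    (x : ℍ → Pt B) (hx : IsHolLift B u x) :
    (stab B G x).relIndex G ≠ 0 ∧ (stab B G x).relIndex G ≤ Module.finrank ℂ[X] B := by
  set τ₀ : ℍ := UpperHalfPlane.I with hτ₀
  set S : Subgroup G := (stab B G x).subgroupOf G with hS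
  -- the key implication
  have key : ∀ a b : G, x ((a : SL(2, ℤ))⁻¹ • τ₀) = x ((b : SL(2, ℤ))⁻¹ • τ₀) → a⁻¹ * b ∈ S := by
    intro a b hab
    have ha := hx.smul (a : SL(2, ℤ))⁻¹ (hG _ (G.inv_mem a.2))
    have hb := hx.smul (b : SL(2, ℤ))⁻¹ (hG _ (G.inv_mem b.2))
    have heq := IsHolLift.eq_of_apply_eq B hu hunr ha hb τ₀ hab
    rw [hS, Subgroup.mem_subgroupOf]
    refine ⟨(a⁻¹ * b).2, fun τ => ?_⟩
    have h1 := congrFun heq ((b : SL(2, ℤ)) • τ)
    simp only [inv_smul_smul] at h1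
    rw [← h1]
    congr 1
    simp [mul_smul]
  have key' : ∀ a b : G, a⁻¹ * b ∈ S →
      x ((a : SL(2, ℤ))⁻¹ • τ₀) = x ((b : SL(2, ℤ))⁻¹ • τ₀) := by
    intro a b hab
    rw [hS, Subgroup.mem_subgroupOf] at hab
    have h1 := hab.2 ((b : SL(2, ℤ))⁻¹ • τ₀)
    rw [← h1]
    congr 1
    simp [mul_smul]
  -- the map from cosets to the fibre
  let ψ : G ⧸ S → Fib B (u τ₀) := fun q =>
    Quotient.liftOn' q (fun a : G => (⟨x ((a : SL(2, ℤ))⁻¹ • τ₀), by
      show x ((a : SL(2, ℤ))⁻¹ • τ₀) (beta B) = u τ₀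
      rw [hx.map_beta, hG _ (G.inv_mem a.2)]⟩ : Fib B (u τ₀)))
      (fun a b hab => Subtype.ext (key' a b (QuotientGroup.leftRel_apply.mp hab)))
  have hψ : Function.Injective ψ := by
    intro q q'
    induction q using Quotient.inductionOn' with | _ a => ?_
    induction q' using Quotient.inductionOn' with | _ b => ?_
    intro h
    have h' : x ((a : SL(2, ℤ))⁻¹ • τ₀) = x ((b : SL(2, ℤ))⁻¹ • τ₀) :=
      congrArg Subtype.val h
    exact Quotient.sound' (QuotientGroup.leftRel_apply.mpr (key a b h'))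
  obtain ⟨hle, hfin⟩ := ncard_fib_le B (u τ₀)
  have : Finite (Fib B (u τ₀)) := hfin
  have hfinq : Finite (G ⧸ S) := Finite.of_injective ψ hψ
  refine ⟨Subgroup.index_ne_zero_of_finite, ?_⟩
  calc (stab B G x).relIndex G = Nat.card (G ⧸ S) := rfl
    _ ≤ Nat.card (Fib B (u τ₀)) := Nat.card_le_card_of_injective ψ hψ
    _ = (Fib B (u τ₀)).ncard := Nat.card_coe_set_eq _
    _ ≤ Module.finrank ℂ[X] B := hle

end Fermat.Agent.S27lib.D3
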