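/-
S27lib / D3 / IfaceDraft (helper2).  Import hub for helper2's half of D3 — now SORRY-FREE.
All interface theorems are proved in the imported files:
`ncard_fib_le` (FibAlg), `exists_local_sections` (LocalSec), `isCoveringMapOn_proj` (Covering),
`exists_unique_holLift`, `IsHolLift.eq_of_apply_eq` (Lift), `relIndex_stab_le`, `IsHolLift.smul` (Stab),
`IsHolLift`, `IsHolLift.toHol`, `stab`, `neg_one_mem_stab` (LiftDefs).
-/
import Mathlib
import Fermat.Agent.S27lib.D3.LiftDefs
import Fermat.Agent.S27lib.D3.LocalSec
import Fermat.Agent.S27lib.D3.Lift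
import Fermat.Agent.S27lib.D3.Stab
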