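/-
S27lib / D3 / Final  (helper8).  Block (I) of D3: the degree sandwich and the final isomorphism.

`F / ℂ` a function field, `β ∈ F` a Belyi function in the `X₀(4)`-normalisation
(`BranchSet ℂ β ⊆ {0, 1}`).  With `B` the integral closure of `ℂ[β]` in `F`, `u4` the Hauptmodul of
`Γ₀(4)` (`Haupt4`), `x` a holomorphic lift of `u4` through `B` (helper2's `exists_unique_holLift`),
`Γ := stab B (Gamma0 4) x` and `toWH0 : B → WH0 Γ` (`Growth`), the induced embedding
`F → Frac (WH0 Γ) = FanG Γ` is an isomorphism by the degree count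
`6 d = [F : ℂ(j)] ≤ [FanG Γ : ℂ(j)] ≤ [SL₂(ℤ) : Γ] = 6 [Γ₀(4) : Γ] ≤ 6 d`,
and `Γ` satisfies helper6's `GammaHyp` (`-1 ∈ Γ`, rank = index, no elliptic elements).
-/
import Mathlib
import Fermat.Agent.S18lib.RRgen.Luroth
import Fermat.Agent.ProgramR.Counting.Index
import Fermat.Agent.S27lib.D3.Haupt4
import Fermat.Agent.S27lib.D3.Growth
import Fermat.Agent.S27lib.D3.Free4
import Fermat.Agent.S27lib.D3.FieldDeg
import Fermat.Agent.S27lib.D3.IfaceDraft
import Fermat.Agent.S27lib.Belyi.PolyAlg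
import Fermat.Agent.S27lib.D4.Curve
import Fermat.Agent.S27lib.D4.GChart

set_option autoImplicit false
set_option linter.unusedSectionVars false
set_option linter.style.haveILetI false

noncomputable section

namespace Fermat.Agent.S27lib.D3

open Fermat.Agent.ProgramR Fermat.Agent.ProgramR.Alg Fermat.Agent.S18lib.RRgen.Luroth
open Fermat.Agent.S27lib.D4
open ModularCurve CongruenceSubgroup UpperHalfPlane Polynomial IntermediateField Module
open scoped MatrixGroups Manifold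

/-! ### the index of `Γ₀(4)` -/

lemma dedekindPsi_four : dedekindPsi 4 = 6 := by
  unfold dedekindPsi
  have h : Nat.divisors 4 = {1, 2, 4} := by decide
  rw [h]
  have h2 : Squarefree 2 := Nat.prime_two.squarefree
  have h4 : ¬ Squarefree 4 := by
    rw [Nat.squarefree_iff_prime_squarefree]
    push Not
    exact ⟨2, Nat.prime_two, by norm_num⟩
  rw [Finset.sum_filter]
  simp [h2, h4]

lemma index_Gamma0_four : (Gamma0 4).index = 6 := by
  rw [index_Gamma0, dedekindPsi_four]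

/-- a subgroup of `Γ₀(4)` of finite relative index has finite index `6 · [Γ₀(4) : Γ]` -/
lemma index_of_le_Gamma0_four {Γ : Subgroup SL(2, ℤ)} (hΓ : Γ ≤ Gamma0 4) :
    Γ.index = Γ.relIndex (Gamma0 4) * 6 := by
  rw [← index_Gamma0_four, Subgroup.relIndex_mul_index hΓ]

/-! ### scaling a transcendental generator -/

section Scale

variable {K F : Type*} [Field K] [Field F] [Algebra K F]

lemma adjoin_smul_eq {c : K} (hc : c ≠ 0) (b : F) : K⟮c • b⟯ = K⟮b⟯ := by
  apply le_antisymm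
  · rw [adjoin_simple_le_iff]
    exact (K⟮b⟯).smul_mem (mem_adjoin_simple_self K b)
  · rw [adjoin_simple_le_iff]
    have h : c⁻¹ • (c • b) = b := by rw [smul_smul, inv_mul_cancel₀ hc, one_smul]
    have h2 : c⁻¹ • (c • b) ∈ K⟮c • b⟯ := (K⟮c • b⟯).smul_mem (mem_adjoin_simple_self K (c • b))
    rwa [h] at h2

lemma transcendental_smul {c : K} (hc : c ≠ 0) {b : F} (hb : Transcendental K b) :
    Transcendental K (c • b) := by
  intro halg
  apply hb
  have h : b = algebraMap K F c⁻¹ * (c • b) := by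
    rw [← Algebra.smul_def, smul_smul, inv_mul_cancel₀ hc, one_smul]
  rw [h]
  exact (isAlgebraic_algebraMap _).mul halg

end Scale

/-! ### the embedding of the function field -/

section Setting

variable (B : Type) [CommRing B] [Algebra ℂ[X] B] [Algebra ℂ B] [IsScalarTower ℂ ℂ[X] B]
  [Module.Finite ℂ[X] B] [Module.Free ℂ[X] B] [IsDomain B]
  {F : Type} [Field F] [Algebra ℂ F] [Algebra B F] [IsScalarTower ℂ B F] [IsFractionRing B F]
  {x : ℍ → Pt B} (hx : IsHolLift B (u4 : ℍ → ℂ) x)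
  [Fintype (SL(2, ℤ) ⧸ stab B (Gamma0 4) x)]

/-- the embedding `B → FanG Γ`, `Γ = stab B Γ₀(4) x` -/
def toFanG : B →ₐ[ℂ] FanG (stab B (Gamma0 4) x) :=
  (IsScalarTower.toAlgHom ℂ (↥(WH0 (stab B (Gamma0 4) x))) (FanG (stab B (Gamma0 4) x))).comp
    (toWH0 B u4 hx)

lemma toFanG_apply (b : B) :
    toFanG B hx b = algebraMap (↥(WH0 (stab B (Gamma0 4) x))) (FanG (stab B (Gamma0 4) x))
      (toWH0 B u4 hx b) := rfl

lemma toFanG_injective : Function.Injective (toFanG B hx) :=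
  (IsFractionRing.injective (↥(WH0 (stab B (Gamma0 4) x))) (FanG (stab B (Gamma0 4) x))).comp
    (toWH0_injective B u4 infinite_range_u4 hx)

/-- **the embedding of the function field** `F = Frac B → FanG Γ` -/
def psi : F →ₐ[ℂ] FanG (stab B (Gamma0 4) x) :=
  IsFractionRing.liftAlgHom (toFanG_injective B hx)

lemma psi_algebraMap (b : B) : psi B hx (algebraMap B F b) = toFanG B hx b := by
  rw [psi, IsFractionRing.liftAlgHom_apply, IsFractionRing.lift_algebraMap]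
  rfl

/-- the coordinate `β` in `F` -/
def betaF : F := algebraMap B F (beta B)

/-- `μ = -16 β` in `F` -/
def muF : F := (-16 : ℂ) • betaF B (F := F)

/-- `j` as a rational function of `μ`, in `F` -/
def jF : F := (muF B (F := F) ^ 2 + 256 * muF B + 4096) ^ 3 / (muF B ^ 4 * (muF B + 16))

/-- `μ = -16 u₄` in `WH0 Γ` -/
def muStab (x : ℍ → Pt B) : ↥(WH0 (stab B (Gamma0 4) x)) := (-16 : ℂ) • uStab B u4 x

lemma muStab_apply (τ : ℍ) : (muStab B x : ℍ → ℂ) τ = -16 * (u4 : ℍ → ℂ) τ := rfl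

/-- the level `4` modular relation in `WH0 Γ` -/
lemma j_mul_muStab :
    WH0.j (stab B (Gamma0 4) x) * (muStab B x ^ 4 * (muStab B x + 16)) =
      (muStab B x ^ 2 + 256 * muStab B x + 4096) ^ 3 := by
  apply Subtype.ext
  funext τ
  have h := jInv_mul_u4 τ
  have e16 : ((16 : ↥(WH0 (stab B (Gamma0 4) x))) : ℍ → ℂ) τ = 16 := rfl
  have e256 : ((256 : ↥(WH0 (stab B (Gamma0 4) x))) : ℍ → ℂ) τ = 256 := rfl
  have e4096 : ((4096 : ↥(WH0 (stab B (Gamma0 4) x))) : ℍ → ℂ) τ = 4096 := rfl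
  simp only [Subalgebra.coe_mul, Subalgebra.coe_pow, Subalgebra.coe_add, Pi.mul_apply,
    Pi.pow_apply, Pi.add_apply, WH0.j_apply, muStab_apply, e16, e256, e4096]
  linear_combination (1048576 : ℂ) * h

/-- `j` in `FanG Γ` -/
def jL (x : ℍ → Pt B) [Fintype (SL(2, ℤ) ⧸ stab B (Gamma0 4) x)] : FanG (stab B (Gamma0 4) x) :=
  algebraMap (↥(WH0 (stab B (Gamma0 4) x))) (FanG (stab B (Gamma0 4) x))
    (WH0.j (stab B (Gamma0 4) x))

/-- `μ` in `FanG Γ` -/
def muL (x : ℍ → Pt B) [Fintype (SL(2, ℤ) ⧸ stab B (Gamma0 4) x)] : FanG (stab B (Gamma0 4) x) :=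
  algebraMap (↥(WH0 (stab B (Gamma0 4) x))) (FanG (stab B (Gamma0 4) x)) (muStab B x)

lemma jL_mul_muL :
    jL B x * (muL B x ^ 4 * (muL B x + 16)) = (muL B x ^ 2 + 256 * muL B x + 4096) ^ 3 := by
  have h := congrArg (algebraMap (↥(WH0 (stab B (Gamma0 4) x))) (FanG (stab B (Gamma0 4) x)))
    (j_mul_muStab B (x := x))
  rw [jL, muL]
  simpa only [map_mul, map_pow, map_add, map_ofNat] using h

lemma psi_betaF : psi B hx (betaF B (F := F)) =
    algebraMap (↥(WH0 (stab B (Gamma0 4) x))) (FanG (stab B (Gamma0 4) x)) (uStab B u4 x) := by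
  rw [betaF, psi_algebraMap, toFanG_apply, toWH0_beta]

lemma psi_muF : psi B hx (muF B (F := F)) = muL B x := by
  rw [muF, map_smul, psi_betaF, muL, muStab, Algebra.smul_def, Algebra.smul_def, map_mul,
    ← IsScalarTower.algebraMap_apply]

variable (hβ : Transcendental ℂ (betaF B (F := F)))

include hβ in
lemma transcendental_muF : Transcendental ℂ (muF B (F := F)) :=
  transcendental_smul (by norm_num) hβ

include hβ in
lemma muF_denom_ne_zero : muF B (F := F) ^ 4 * (muF B + 16) ≠ 0 := by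
  have hμ := transcendental_muF B hβ
  refine mul_ne_zero (pow_ne_zero 4 ?_) ?_
  · intro h0
    apply hμ
    rw [h0]
    exact isAlgebraic_zero
  · intro h0
    apply hμ
    have h1 : muF B (F := F) = algebraMap ℂ F (-16) := by
      rw [map_neg, map_ofNat]
      exact eq_neg_of_add_eq_zero_left h0
    rw [h1]
    exact isAlgebraic_algebraMap _

include hβ in
lemma jF_mul_muF :
    jF B (F := F) * (muF B ^ 4 * (muF B + 16)) = (muF B ^ 2 + 256 * muF B + 4096) ^ 3 := by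
  rw [jF, div_mul_cancel₀ _ (muF_denom_ne_zero B hβ)]

include hβ in
lemma psi_jF : psi B hx (jF B (F := F)) = jL B x := by
  have h1 := congrArg (psi B hx) (jF_mul_muF B hβ)
  simp only [map_mul, map_pow, map_add, map_ofNat, psi_muF] at h1
  rw [← jL_mul_muL B (x := x)] at h1
  have hne : muL B x ^ 4 * (muL B x + 16) ≠ 0 := by
    have hinj : Function.Injective (psi B hx) :=
      RingHom.injective ((psi B hx : F →ₐ[ℂ] FanG (stab B (Gamma0 4) x)) :
        F →+* FanG (stab B (Gamma0 4) x))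
    have h2 := (map_ne_zero_iff (psi B hx) hinj).mpr (muF_denom_ne_zero B hβ)
    simpa only [map_mul, map_pow, map_add, map_ofNat, psi_muF] using h2
  exact mul_right_cancel₀ hne h1

include hβ in
/-- `[F : ℂ(j)] = 6 [F : ℂ(β)]` -/
lemma finrank_adjoin_jF :
    finrank ℂ⟮jF B (F := F)⟯ F = 6 * finrank ℂ⟮betaF B (F := F)⟯ F := by
  rw [finrank_of_mu4 ℂ (transcendental_muF B hβ) two_ne_zero (jF_mul_muF B hβ), muF,
    adjoin_smul_eq (by norm_num)]

lemma psi_injective : Function.Injective (psi B hx (F := F)) :=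
  RingHom.injective ((psi B hx : F →ₐ[ℂ] FanG (stab B (Gamma0 4) x)) :
    F →+* FanG (stab B (Gamma0 4) x))

/-- `j ∈ FanG Γ` is the image of `X ∈ ℂ(X)` -/
lemma jL_eq_algebraMap_X :
    jL B x = algebraMap (RatFunc ℂ) (FanG (stab B (Gamma0 4) x)) RatFunc.X := by
  rw [← RatFunc.algebraMap_X,
    ← IsScalarTower.algebraMap_apply ℂ[X] (RatFunc ℂ) (FanG (stab B (Gamma0 4) x)),
    IsScalarTower.algebraMap_apply ℂ[X] (↥(WH0 (stab B (Gamma0 4) x)))
      (FanG (stab B (Gamma0 4) x)), WH0.algebraMap_poly, aeval_X]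
  rfl

/-- `[FanG Γ : ℂ(j)] = rank_{ℂ[j]} WH0 Γ ≤ [SL₂(ℤ) : Γ]` -/
lemma finrank_adjoin_jL :
    finrank ℂ⟮jL B x⟯ (FanG (stab B (Gamma0 4) x)) =
      finrank ℂ[X] ↥(WH0 (stab B (Gamma0 4) x)) := by
  rw [jL_eq_algebraMap_X, finrank_adjoin_eq_finrank_ratFunc, finrank_FF]

lemma finrank_WH0_le_card :
    finrank ℂ[X] ↥(WH0 (stab B (Gamma0 4) x)) ≤
      Fintype.card (SL(2, ℤ) ⧸ stab B (Gamma0 4) x) :=
  (WH0.finrank_eq_finrank_funField (stab B (Gamma0 4) x)).trans_le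
    (WH0.finrank_funField_le (stab B (Gamma0 4) x))

lemma card_quotient_stab :
    Fintype.card (SL(2, ℤ) ⧸ stab B (Gamma0 4) x) =
      (stab B (Gamma0 4) x).relIndex (Gamma0 4) * 6 := by
  rw [← Nat.card_eq_fintype_card, ← Subgroup.index_eq_card,
    index_of_le_Gamma0_four (stab_le B (Gamma0 4) x)]

include hβ in
/-- **the degree sandwich**: the embedding `F → FanG Γ` is surjective and `WH0 Γ` has rank
`[SL₂(ℤ) : Γ]` over `ℂ[j]`. -/
theorem psi_surjective_and_rank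
    (hrk : finrank ℂ[X] B = finrank ℂ⟮betaF B (F := F)⟯ F)
    (hidx : (stab B (Gamma0 4) x).relIndex (Gamma0 4) ≤ finrank ℂ[X] B) :
    Function.Surjective (psi B hx (F := F)) ∧
      finrank ℂ[X] ↥(WH0 (stab B (Gamma0 4) x)) =
        Fintype.card (SL(2, ℤ) ⧸ stab B (Gamma0 4) x) := by
  have hj := psi_jF B hx hβ
  have hcard := card_quotient_stab B (x := x)
  have hle := finrank_WH0_le_card B (x := x)
  have hF := finrank_adjoin_jF B hβ
  have hL := finrank_adjoin_jL B (x := x)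
  haveI : FiniteDimensional ℂ⟮psi B hx (jF B (F := F))⟯ (FanG (stab B (Gamma0 4) x)) := by
    rw [hj, jL_eq_algebraMap_X]
    exact finiteDimensional_adjoin_of_ratFunc
  have hL' : finrank ℂ⟮psi B hx (jF B (F := F))⟯ (FanG (stab B (Gamma0 4) x)) =
      finrank ℂ[X] ↥(WH0 (stab B (Gamma0 4) x)) := by
    rw [hj]
    exact hL
  have h : finrank ℂ⟮psi B hx (jF B (F := F))⟯ (FanG (stab B (Gamma0 4) x)) ≤
      finrank ℂ⟮jF B (F := F)⟯ F := by
    rw [hL', hF, ← hrk]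
    calc finrank ℂ[X] ↥(WH0 (stab B (Gamma0 4) x))
        ≤ Fintype.card (SL(2, ℤ) ⧸ stab B (Gamma0 4) x) := hle
      _ = (stab B (Gamma0 4) x).relIndex (Gamma0 4) * 6 := hcard
      _ ≤ finrank ℂ[X] B * 6 := Nat.mul_le_mul_right 6 hidx
      _ = 6 * finrank ℂ[X] B := Nat.mul_comm _ _
  obtain ⟨hsurj, heq⟩ := surjective_of_finrank_le (psi B hx (F := F)) (jF B (F := F)) h
  refine ⟨hsurj, le_antisymm hle ?_⟩
  rw [hcard]
  calc (stab B (Gamma0 4) x).relIndex (Gamma0 4) * 6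
      ≤ finrank ℂ[X] B * 6 := Nat.mul_le_mul_right 6 hidx
    _ = 6 * finrank ℂ⟮betaF B (F := F)⟯ F := by rw [hrk, Nat.mul_comm]
    _ = finrank ℂ⟮jF B (F := F)⟯ F := hF.symm
    _ = finrank ℂ⟮psi B hx (jF B (F := F))⟯ (FanG (stab B (Gamma0 4) x)) := heq.symm
    _ = finrank ℂ[X] ↥(WH0 (stab B (Gamma0 4) x)) := hL'

/-- **`GammaHyp`** for the stabiliser of a lift, given the rank -/
theorem gammaHyp_stab
    (hrank : finrank ℂ[X] ↥(WH0 (stab B (Gamma0 4) x)) =
      Fintype.card (SL(2, ℤ) ⧸ stab B (Gamma0 4) x)) :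
    GammaHyp (stab B (Gamma0 4) x) where
  neg := neg_one_mem_stab B (Gamma0 4) (neg_one_mem_Gamma0 4) x
  rank := hrank
  free := fun _ hγ _ hz =>
    eq_one_or_neg_one_of_fixed_Gamma0_four (stab_le B (Gamma0 4) x hγ) hz

end Setting

/-! ### the theorem -/

section Concrete

variable {F : Type} [Field F] [Algebra ℂ F]

/-- **D3.**  A function field `F / ℂ` with a function `β` unramified outside `{0, 1, ∞}` is the
analytic function field `Frac (WH0 Γ)` of a finite index subgroup `Γ ≤ Γ₀(4)` satisfying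
`GammaHyp` (`-1 ∈ Γ`, `rank_{ℂ[j]} WH0 Γ = [SL₂(ℤ) : Γ]`, no elliptic elements); the isomorphism
sends `β` to the Hauptmodul `u₄`. -/
theorem exists_gamma_iso (β : F) (hβ : Transcendental ℂ β) [FiniteDimensional ℂ⟮β⟯ F]
    (hbr : Belyi.BranchSet ℂ β ⊆ {0, 1}) :
    ∃ (Γ : Subgroup SL(2, ℤ)) (_ : Fintype (SL(2, ℤ) ⧸ Γ)) (e : F ≃ₐ[ℂ] FanG Γ),
      GammaHyp Γ ∧ ∃ hΓ : Γ ≤ Gamma0 4,
        e β = algebraMap (↥(WH0 Γ)) (FanG Γ) ⟨u4.1, WH0_mono hΓ u4.2⟩ := by
  letI := Belyi.polyAlgebra β hβ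
  haveI := Belyi.isScalarTower_polyAlgebra β hβ
  haveI := Belyi.finite_polyAlgebra β hβ
  haveI := Belyi.free_polyAlgebra β hβ
  haveI := FF.isDedekindDomain_intClosure β hβ
  haveI := FF.isFractionRing_intClosure (K := ℂ) β
  -- the fibres over the values of `u₄` are full
  have hunr : ∀ τ : ℍ, (Fib (Belyi.IntB ℂ β) ((u4 : ℍ → ℂ) τ)).ncard =
      finrank ℂ[X] (Belyi.IntB ℂ β) := fun τ =>
    Belyi.ncard_points_polyAlgebra β hβ (fun h => by
      rcases hbr h with h0 | h1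
      · exact u4_ne_zero τ h0
      · exact u4_ne_one τ h1)
  have hpos : 0 < finrank ℂ[X] (Belyi.IntB ℂ β) := Module.finrank_pos
  -- a base point and the lift through it
  obtain ⟨p₀, hp₀⟩ : (Fib (Belyi.IntB ℂ β) ((u4 : ℍ → ℂ) UpperHalfPlane.I)).Nonempty := by
    apply Set.nonempty_of_ncard_ne_zero
    rw [hunr]
    exact hpos.ne'
  obtain ⟨x, ⟨hx, -⟩, -⟩ := exists_unique_holLift (Belyi.IntB ℂ β) (u4 : ℍ → ℂ) u4_mdiff hunr
    UpperHalfPlane.I p₀ hp₀
  obtain ⟨hne, hidx⟩ := relIndex_stab_le (Belyi.IntB ℂ β) (Gamma0 4) (u4 : ℍ → ℂ) u4_mdiff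
    u4_smul hunr x hx
  -- finite index
  haveI : (stab (Belyi.IntB ℂ β) (Gamma0 4) x).FiniteIndex := ⟨by
    rw [index_of_le_Gamma0_four (stab_le (Belyi.IntB ℂ β) (Gamma0 4) x)]
    exact Nat.mul_ne_zero hne (by norm_num)⟩
  letI : Fintype (SL(2, ℤ) ⧸ stab (Belyi.IntB ℂ β) (Gamma0 4) x) := Fintype.ofFinite _
  -- `β` as an element of `F`
  have hβF : betaF (Belyi.IntB ℂ β) (F := F) = β := by
    rw [betaF, beta, Belyi.algebraMap_polyAlgebra_X β hβ, FF.algebraMap_genB]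
  have hβ' : Transcendental ℂ (betaF (Belyi.IntB ℂ β) (F := F)) := by rw [hβF]; exact hβ
  have hrk : finrank ℂ[X] (Belyi.IntB ℂ β) = finrank ℂ⟮betaF (Belyi.IntB ℂ β) (F := F)⟯ F := by
    rw [hβF]
    exact Belyi.finrank_polyAlgebra β hβ
  obtain ⟨hsurj, hrank⟩ := psi_surjective_and_rank (Belyi.IntB ℂ β) hx hβ' hrk hidx
  refine ⟨stab (Belyi.IntB ℂ β) (Gamma0 4) x, inferInstance,
    AlgEquiv.ofBijective (psi (Belyi.IntB ℂ β) hx) ⟨psi_injective (Belyi.IntB ℂ β) hx, hsurj⟩,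
    gammaHyp_stab (Belyi.IntB ℂ β) hrank, stab_le (Belyi.IntB ℂ β) (Gamma0 4) x, ?_⟩
  have h := psi_betaF (Belyi.IntB ℂ β) hx (F := F)
  rw [hβF] at h
  exact h

end Concrete

end Fermat.Agent.S27lib.D3
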